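import Fermat.Prelude.Def_EllipticCurve_FrobeniusTrace
import Mathlib.RingTheory.Invariant.Profinite
import Mathlib.RingTheory.IntegralClosure.Algebra.Basic
import Mathlib.RingTheory.Valuation.LocalSubring
import Mathlib.RingTheory.Polynomial.Content
import Mathlib.FieldTheory.Galois.Infinite
import Mathlib.FieldTheory.Galois.Profinite
import Mathlib.FieldTheory.IsAlgClosed.AlgebraicClosure
import Mathlib.RingTheory.IntegralClosure.IntegrallyClosed
import Mathlib.RingTheory.Localization.Integral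
import Mathlib.FieldTheory.Perfect

/-! Existence of Frobenius elements at every valuation subring of `ℚ̄` over a prime. -/

set_option autoImplicit false

open Polynomial
open scoped Pointwise

namespace Fermat.Agent.Deform

local notation "Qb" => AlgebraicClosure ℚ
local notation "GalQ" => (AlgebraicClosure ℚ ≃ₐ[ℚ] AlgebraicClosure ℚ)
local notation "Bint" => integralClosure ℤ (AlgebraicClosure ℚ)

theorem qbar_isAlgebraic : Algebra.IsAlgebraic ℚ Qb := AlgebraicClosure.isAlgebraic ℚ

theorem qbar_isGalois : IsGalois ℚ Qb :=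
  have : Algebra.IsAlgebraic ℚ Qb := qbar_isAlgebraic
  have : Normal ℚ Qb :=
    @IsAlgClosure.normal ℚ Qb _ _ _ ⟨inferInstance, qbar_isAlgebraic⟩
  ⟨⟩

/-- Every prime has a valuation subring of `ℚ̄` above it. -/
theorem exists_valuationSubring_liesOverPrime {ℓ : ℕ} (hℓ : ℓ.Prime) :
    ∃ A : ValuationSubring Qb, A.LiesOverPrime ℓ := by
  let e : ℤ →+* Qb := Int.castRingHom Qb
  have hinj : Function.Injective e := Int.cast_injective
  let R := e.range
  let I : Ideal R := Ideal.span {(ℓ : R)}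
  have hI : I ≠ ⊤ := by
    intro h
    have h1 : IsUnit (ℓ : R) := Ideal.span_singleton_eq_top.mp h
    obtain ⟨u, hu⟩ := h1
    obtain ⟨m, hm⟩ := (↑u⁻¹ : R).2
    have h2 : ((ℓ : R) : Qb) * ((↑u⁻¹ : R) : Qb) = 1 := by
      rw [← hu]; exact congrArg Subtype.val u.mul_inv
    rw [← hm] at h2
    have h3 : ((((ℓ : ℤ) * m : ℤ)) : Qb) = ((1 : ℤ) : Qb) := by
      push_cast; simpa [e] using h2
    have h4 : (ℓ : ℤ) * m = 1 := Int.cast_injective h3
    have := Int.eq_one_of_mul_eq_one_right (Int.natCast_nonneg ℓ) h4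
    exact hℓ.one_lt.ne' (by exact_mod_cast this)
  obtain ⟨V, -, hV⟩ := Ideal.image_subset_nonunits_valuationSubring I hI
  exact ⟨V, hV ⟨(ℓ : R), Ideal.mem_span_singleton_self _, by simp⟩⟩

/-- Integral elements lie in every valuation subring. -/
theorem integral_mem (A : ValuationSubring Qb) (b : Bint) : (b : Qb) ∈ A := by
  have hb : IsIntegral A (b : Qb) := b.2.tower_top
  obtain ⟨a, ha⟩ := IsIntegrallyClosed.isIntegral_iff.mp hb
  exact ha ▸ a.2

/-- The inclusion of the algebraic integers into a valuation subring. -/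
noncomputable def intToVal (A : ValuationSubring Qb) : Bint →+* A where
  toFun b := ⟨b, integral_mem A b⟩
  map_one' := rfl
  map_mul' _ _ := rfl
  map_zero' := rfl
  map_add' _ _ := rfl

/-- The centre of a valuation subring on the algebraic integers. -/
noncomputable def centre (A : ValuationSubring Qb) : Ideal Bint :=
  (IsLocalRing.maximalIdeal A).comap (intToVal A)

instance centre_isPrime (A : ValuationSubring Qb) : (centre A).IsPrime :=
  Ideal.IsPrime.comap _

theorem centre_comap {A : ValuationSubring Qb} {ℓ : ℕ} (hℓ : ℓ.Prime) (hA : A.LiesOverPrime ℓ) :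
    (centre A).comap (algebraMap ℤ Bint) = Ideal.span {(ℓ : ℤ)} := by
  have : (Ideal.span {(ℓ : ℤ)}).IsMaximal :=
    PrincipalIdealRing.isMaximal_of_irreducible (Nat.prime_iff_prime_int.mp hℓ).irreducible
  symm
  refine Ideal.IsMaximal.eq_of_le inferInstance (Ideal.IsPrime.ne_top inferInstance) ?_
  rw [Ideal.span_singleton_le_iff_mem, Ideal.mem_comap]
  obtain ⟨h1, h2⟩ := ValuationSubring.mem_nonunits_iff_exists_mem_maximalIdeal.mp hA
  rw [centre, Ideal.mem_comap]
  have he : intToVal A (algebraMap ℤ Bint (ℓ : ℤ)) = ⟨_, h1⟩ :=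
    Subtype.ext (by simp [intToVal])
  rw [he]; exact h2

theorem mul_mem_of_root_aux (Q : Ideal Bint) (x : Qb) :
    ∀ (n : ℕ) (g : Polynomial Bint), g.natDegree ≤ n → aeval x g = 0 →
      (∀ i, g.coeff i ∈ Q) ∨
        ∃ y z : Bint, (z : Qb) = x * y ∧ (y ∉ Q ∨ z ∉ Q) := by
  intro n
  induction n with
  | zero =>
    intro g hg hx
    left
    obtain ⟨c, rfl⟩ : ∃ c, g = C c := ⟨_, eq_C_of_natDegree_le_zero hg⟩
    have hc : c = 0 := by
      rw [aeval_C] at hx
      exact Subtype.ext hx
    simp [hc]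
  | succ n ih =>
    intro g hg hx
    by_cases hlt : g.natDegree ≤ n
    · exact ih g hlt hx
    have hdeg : g.natDegree = n + 1 := le_antisymm hg (by omega)
    have hlead := isIntegral_leadingCoeff_smul (p := g) (x := x) hx
    have hcx : IsIntegral ℤ ((g.leadingCoeff : Qb) * x) := by
      have : Algebra.IsIntegral ℤ Bint := inferInstance
      refine isIntegral_trans (R := ℤ) (A := Bint) _ ?_
      exact hlead
    let c := g.leadingCoeff
    let z : Bint := ⟨(c : Qb) * x, hcx⟩
    by_cases hout : c ∉ Q ∨ z ∉ Q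
    · exact Or.inr ⟨c, z, mul_comm _ _, hout⟩
    simp only [not_or, not_not] at hout
    let g' := g.eraseLead + C z * X ^ n
    have hg' : g'.natDegree ≤ n := by
      refine (natDegree_add_le _ _).trans (max_le ?_ (natDegree_C_mul_X_pow_le _ _))
      exact g.eraseLead_natDegree_le.trans (by omega)
    have hx' : aeval x g' = 0 := by
      have h1 := g.eraseLead_add_C_mul_X_pow
      rw [hdeg] at h1
      rw [← h1] at hx
      rw [← hx]
      simp only [g', map_add, map_mul, map_pow, aeval_C, aeval_X]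
      change _ + (c : Qb) * x * x ^ n = _ + (c : Qb) * x ^ (n + 1)
      rw [pow_succ']; ring
    rcases ih g' hg' hx' with h | h
    · left
      intro i
      by_cases hi : i = n + 1
      · subst hi
        have : g.coeff (n + 1) = c := by rw [← hdeg]; rfl
        rw [this]; exact hout.1
      have h1 : g.eraseLead.coeff i = g.coeff i := by
        rw [eraseLead_coeff_of_ne]; rw [hdeg]; exact hi
      have h2 := h i
      simp only [g', coeff_add, coeff_C_mul_X_pow, h1] at h2
      by_cases hin : i = n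
      · simp only [hin, if_true] at h2 ⊢
        simpa using Q.sub_mem h2 hout.2
      · simpa [hin] using h2
    · exact Or.inr h

/-- Elements of a valuation subring are fractions of algebraic integers with denominator
outside the centre. -/
theorem exists_fraction {A : ValuationSubring Qb} {ℓ : ℕ} (hℓ : ℓ.Prime) (hA : A.LiesOverPrime ℓ)
    {x : Qb} (hx : x ∈ A) : ∃ y z : Bint, y ∉ centre A ∧ x * y = z := by
  have : Algebra.IsAlgebraic ℚ Qb := qbar_isAlgebraic
  obtain ⟨f, hf0, hf⟩ := (IsFractionRing.isAlgebraic_iff ℤ ℚ Qb).mpr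
    (Algebra.IsAlgebraic.isAlgebraic (R := ℚ) x)
  have hp : aeval x f.primPart = 0 :=
    aeval_primPart_eq_zero hf0 hf
  have hg : aeval x (f.primPart.map (algebraMap ℤ Bint)) = 0 := by
    rw [aeval_map_algebraMap, hp]
  rcases mul_mem_of_root_aux (centre A) x _ _ le_rfl hg with h | ⟨y, z, hz, h⟩
  · exfalso
    have hdvd : C (ℓ : ℤ) ∣ f.primPart := by
      rw [C_dvd_iff_dvd_coeff]
      intro i
      have hi := h i
      rw [coeff_map, ← Ideal.mem_comap, centre_comap hℓ hA, Ideal.mem_span_singleton] at hi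
      exact hi
    have := f.isPrimitive_primPart (ℓ : ℤ) hdvd
    exact (Nat.prime_iff_prime_int.mp hℓ).not_isUnit this
  · refine ⟨y, z, ?_, hz.symm⟩
    rcases h with hy | hz'
    · exact hy
    · intro hy
      apply hz'
      have : intToVal A z = ⟨x, hx⟩ * intToVal A y := Subtype.ext hz
      rw [centre, Ideal.mem_comap, this]
      exact Ideal.mul_mem_left _ _ hy

theorem smul_mem_of_centre_stable {A : ValuationSubring Qb} {ℓ : ℕ} (hℓ : ℓ.Prime)
    (hA : A.LiesOverPrime ℓ) {σ : GalQ} (hσ : σ ∈ MulAction.stabilizer GalQ (centre A))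
    {x : Qb} (hx : x ∈ A) : σ x ∈ A := by
  obtain ⟨y, z, hy, h⟩ := exists_fraction hℓ hA hx
  have hy' : σ • y ∉ centre A := by
    intro h'
    rw [← MulAction.mem_stabilizer_iff.mp hσ, Ideal.smul_mem_pointwise_smul_iff] at h'
    exact hy h'
  have hu : IsUnit (intToVal A (σ • y)) := IsLocalRing.notMem_maximalIdeal.mp hy'
  obtain ⟨u, hu⟩ := hu
  have h1 : σ x * ((σ • y : Bint) : Qb) = ((σ • z : Bint) : Qb) := by
    rw [integralClosure.coe_smul, integralClosure.coe_smul, AlgEquiv.smul_def, AlgEquiv.smul_def,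
      ← map_mul, h]
  have h2 : ((intToVal A (σ • y) : A) : Qb) * ((↑u⁻¹ : A) : Qb) = 1 := by
    rw [← hu]; exact congrArg Subtype.val u.mul_inv
  have h3 : σ x = ((intToVal A (σ • z) * ↑u⁻¹ : A) : Qb) := by
    change σ x = ((σ • z : Bint) : Qb) * ((↑u⁻¹ : A) : Qb)
    rw [← h1, mul_assoc]
    exact ((congrArg (σ x * ·) h2).trans (mul_one _)).symm
  rw [h3]; exact SetLike.coe_mem _

/-- There is a Frobenius element at every valuation subring over a prime. -/
theorem exists_isFrobeniusAt {A : ValuationSubring Qb} {ℓ : ℕ} (hℓ : ℓ.Prime)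
    (hA : A.LiesOverPrime ℓ) : ∃ σ : GalQ, A.IsFrobeniusAt σ ℓ := by
  classical
  let : TopologicalSpace Bint := ⊥
  have : DiscreteTopology Bint := ⟨rfl⟩
  have : Algebra.IsAlgebraic ℚ Qb := qbar_isAlgebraic
  have : Algebra.IsIntegral ℚ Qb := Algebra.IsAlgebraic.isIntegral
  have : ContinuousSMul GalQ Bint := by
    rw [continuousSMul_iff_stabilizer_isOpen]
    intro b
    convert stabilizer_isOpen_of_isIntegral (K := ℚ) (b : Qb) using 1
    ext g
    simp [Subtype.ext_iff]
  have : IsGalois ℚ Qb := qbar_isGalois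
  have : Algebra.IsInvariant ℤ Bint GalQ := by
    refine ⟨fun b hb => ?_⟩
    obtain ⟨q, hq⟩ := (InfiniteGalois.mem_bot_iff_fixed (k := ℚ) (b : Qb)).mpr fun f => by
      simpa using congrArg Subtype.val (hb f)
    have hb' : IsIntegral ℤ (algebraMap ℚ Qb q) := by
      rw [show algebraMap ℚ Qb q = (b : Qb) from hq]; exact b.2
    rw [isIntegral_algebraMap_iff (algebraMap ℚ Qb).injective] at hb'
    obtain ⟨m, hm⟩ := IsIntegrallyClosed.isIntegral_iff.mp hb'
    refine ⟨m, Subtype.ext ?_⟩
    rw [← show algebraMap ℚ Qb q = (b : Qb) from hq, ← hm]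
    simp
  let P : Ideal ℤ := Ideal.span {(ℓ : ℤ)}
  have hP : P.IsMaximal :=
    PrincipalIdealRing.isMaximal_of_irreducible (Nat.prime_iff_prime_int.mp hℓ).irreducible
  have : (centre A).LiesOver P := ⟨(centre_comap hℓ hA).symm⟩
  let : Algebra.IsIntegral ℤ Bint := inferInstance
  have : (centre A).IsMaximal :=
    Ideal.isMaximal_of_isIntegral_of_isMaximal_comap (R := ℤ) _
      (by rw [centre_comap hℓ hA]; exact hP)
  let : Field (Bint ⧸ centre A) := Ideal.Quotient.field _
  let : Field (ℤ ⧸ P) := Ideal.Quotient.field _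
  have : Fact ℓ.Prime := ⟨hℓ⟩
  have : CharP (Bint ⧸ centre A) ℓ := by
    refine (CharP.charP_iff_prime_eq_zero hℓ).mpr ?_
    rw [← map_natCast (Ideal.Quotient.mk (centre A)), Ideal.Quotient.eq_zero_iff_mem]
    have : (ℓ : ℤ) ∈ (centre A).comap (algebraMap ℤ Bint) := by
      rw [centre_comap hℓ hA]; exact Ideal.mem_span_singleton_self _
    simpa using this
  have : CharP (ℤ ⧸ P) ℓ :=
    RingHom.charP (algebraMap (ℤ ⧸ P) (Bint ⧸ centre A)) (RingHom.injective _) ℓ
  have : Finite (ℤ ⧸ P) := Finite.of_equiv _ (Int.quotientSpanNatEquivZMod ℓ).symm.toEquiv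
  have : PerfectField (ℤ ⧸ P) := PerfectField.ofFinite
  have : Algebra.IsAlgebraic (ℤ ⧸ P) (Bint ⧸ centre A) := by
    refine ⟨fun x => ?_⟩
    obtain ⟨b, rfl⟩ := Ideal.Quotient.mk_surjective x
    have h := (Algebra.IsIntegral.isIntegral (R := ℤ) b).map (Ideal.Quotient.mkₐ ℤ (centre A))
    exact (h.tower_top).isAlgebraic
  have : PerfectField (Bint ⧸ centre A) := Algebra.IsAlgebraic.perfectField (K := ℤ ⧸ P)
  have : ExpChar (Bint ⧸ centre A) ℓ := ExpChar.prime hℓ
  have : PerfectRing (Bint ⧸ centre A) ℓ := PerfectField.toPerfectRing ℓ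
  let φ : (Bint ⧸ centre A) ≃ₐ[ℤ ⧸ P] (Bint ⧸ centre A) :=
    { frobeniusEquiv (Bint ⧸ centre A) ℓ with
      commutes' := fun r => by
        obtain ⟨m, rfl⟩ := Ideal.Quotient.mk_surjective r
        rw [show (Ideal.Quotient.mk P) m = (m : ℤ ⧸ P) from rfl, map_intCast]
        exact map_intCast (frobeniusEquiv (Bint ⧸ centre A) ℓ) m }
  obtain ⟨⟨σ, hσ⟩, hστ⟩ :=
    Ideal.Quotient.stabilizerHom_surjective_of_profinite (G := GalQ) P (centre A) φ
  have hmod : ∀ b : Bint, (σ • b) - b ^ ℓ ∈ centre A := by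
    intro b
    rw [← Ideal.Quotient.eq, map_pow]
    exact DFunLike.congr_fun hστ (Ideal.Quotient.mk (centre A) b)
  have hdec : σ ∈ A.decompositionSubgroup ℚ := by
    rw [MulAction.mem_stabilizer_iff]
    ext x
    constructor
    · rintro ⟨a, ha, rfl⟩
      exact smul_mem_of_centre_stable hℓ hA hσ ha
    · intro hx
      refine ⟨σ⁻¹ x, smul_mem_of_centre_stable hℓ hA (inv_mem hσ) hx, ?_⟩
      exact σ.apply_symm_apply x
  refine ⟨σ, hdec, fun r => ?_⟩
  obtain ⟨⟨x, hx⟩, rfl⟩ := IsLocalRing.residue_surjective r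
  obtain ⟨y, z, hy, h⟩ := exists_fraction hℓ hA hx
  have hyu : IsLocalRing.residue A (intToVal A y) ≠ 0 := by
    rw [ne_eq, IsLocalRing.residue_eq_zero_iff]; exact hy
  have key : ∀ b : Bint, (⟨σ, hdec⟩ : A.decompositionSubgroup ℚ) •
      IsLocalRing.residue A (intToVal A b) = IsLocalRing.residue A (intToVal A b) ^ ℓ := by
    intro b
    rw [← IsLocalRing.ResidueField.residue_smul, ← map_pow, ← sub_eq_zero, ← map_sub,
      IsLocalRing.residue_eq_zero_iff]
    exact hmod b
  have hxy : (⟨x, hx⟩ : A) * intToVal A y = intToVal A z := Subtype.ext h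
  have := key z
  rw [← hxy, map_mul, smul_mul', key y, mul_pow] at this
  exact mul_right_cancel₀ (pow_ne_zero _ hyu) this

end Fermat.Agent.Deform
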