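/-
Matrix models of adic Galois representations: toolbox for deformation theory.
-/
import Mathlib
import Fermat.Prelude.Def_GaloisRep_Adic

set_option autoImplicit false
set_option linter.style.haveILetI false

noncomputable section

namespace Fermat.Agent.Deform

open IsLocalRing
open scoped TensorProduct

/-- The absolute Galois group of `ℚ`. -/
abbrev GQ : Type := AlgebraicClosure ℚ ≃ₐ[ℚ] AlgebraicClosure ℚ

/-- A multiplicative map to `2 × 2` matrices. -/
abbrev MatRep (A : Type) [CommRing A] : Type := GQ →* Matrix (Fin 2) (Fin 2) A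

variable {A : Type} [CommRing A]

/-- Post-composition of a matrix representation with a ring homomorphism. -/
def mapRep {B : Type} [CommRing B] (φ : A →+* B) (M : MatRep A) : MatRep B :=
  φ.mapMatrix.toMonoidHom.comp M

@[simp] lemma mapRep_apply {B : Type} [CommRing B] (φ : A →+* B) (M : MatRep A) (σ : GQ)
    (i j : Fin 2) : mapRep φ M σ i j = φ (M σ i j) := rfl

lemma mapRep_eq_map {B : Type} [CommRing B] (φ : A →+* B) (M : MatRep A) (σ : GQ) :
    mapRep φ M σ = (M σ).map φ := rfl

lemma matRep_ext {M N : MatRep A} (h : ∀ σ i j, M σ i j = N σ i j) : M = N :=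
  MonoidHom.ext fun σ => Matrix.ext fun i j => h σ i j

/-- Conjugate of a matrix representation by an invertible matrix. -/
def conjRep (g : (Matrix (Fin 2) (Fin 2) A)ˣ) (M : MatRep A) : MatRep A where
  toFun σ := g.val * M σ * g.inv
  map_one' := by rw [map_one, mul_one, g.val_inv]
  map_mul' σ τ := by
    calc g.val * M (σ * τ) * g.inv = g.val * M σ * (1 : Matrix (Fin 2) (Fin 2) A) * M τ * g.inv := by
          rw [map_mul, mul_one]; simp only [mul_assoc]
      _ = g.val * M σ * g.inv * (g.val * M τ * g.inv) := by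
          rw [← g.inv_val]; simp only [mul_assoc]

lemma conjRep_intertwines (g : (Matrix (Fin 2) (Fin 2) A)ˣ) (M : MatRep A) (σ : GQ) :
    g.val * M σ = conjRep g M σ * g.val := by
  show _ = g.val * M σ * g.inv * g.val
  rw [mul_assoc (g.val * M σ), g.inv_val, mul_one]

/-- Continuity for the adic topology, entrywise. -/
def IsContRep (A : Type) [CommRing A] [IsLocalRing A] (M : MatRep A) : Prop :=
  ∀ n : ℕ, ∃ L : IntermediateField ℚ (AlgebraicClosure ℚ), FiniteDimensional ℚ L ∧
    ∀ σ : GQ, (∀ x ∈ L, σ x = x) → ∀ i j, (M σ - 1) i j ∈ maximalIdeal A ^ n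

variable [IsLocalRing A]

omit [IsLocalRing A] in
lemma mem_smul_top_of_forall {ι : Type} [Fintype ι] (I : Ideal A) (v : ι → A)
    (h : ∀ i, v i ∈ I) : v ∈ I • (⊤ : Submodule A (ι → A)) := by
  classical
  rw [pi_eq_sum_univ v]
  exact Submodule.sum_mem _ fun i _ => Submodule.smul_mem_smul (h i) Submodule.mem_top

/-- The Galois representation on `A²` attached to a continuous matrix representation. -/
def toAdic (M : MatRep A) (hM : IsContRep A M) : GaloisRepAdic A where
  V := Fin 2 → A
  finrank_eq := Module.finrank_fin_fun A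
  ρ := (Matrix.toLinAlgEquiv' (R := A) (n := Fin 2)).toAlgHom.toRingHom.toMonoidHom.comp M
  isAdicContinuous := fun n => by
    obtain ⟨L, hL, h⟩ := hM n
    refine ⟨L, hL, fun σ hσ v => mem_smul_top_of_forall _ _ fun i => ?_⟩
    have h1 : (M σ).mulVec v i - v i = ((M σ - 1).mulVec v) i := by
      rw [Matrix.sub_mulVec, Matrix.one_mulVec]; rfl
    show (Matrix.toLinAlgEquiv' (M σ) v - v) i ∈ _
    rw [Matrix.toLinAlgEquiv'_apply, Pi.sub_apply, h1]
    rw [Matrix.mulVec, dotProduct]
    exact Ideal.sum_mem _ fun j _ => Ideal.mul_mem_right _ _ (h σ hσ i j)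

/-- The standard basis of the space of `toAdic M hM`. -/
def stdBasis (M : MatRep A) (hM : IsContRep A M) : Module.Basis (Fin 2) A (toAdic M hM).V :=
  Pi.basisFun A (Fin 2)

/-- Matrices of an adic representation in a basis. -/
def matOf (ρ : GaloisRepAdic A) (b : Module.Basis (Fin 2) A ρ.V) : MatRep A :=
  (LinearMap.toMatrixAlgEquiv b).toAlgHom.toRingHom.toMonoidHom.comp ρ.ρ

lemma matOf_apply (ρ : GaloisRepAdic A) (b : Module.Basis (Fin 2) A ρ.V) (σ : GQ) :
    matOf ρ b σ = LinearMap.toMatrix b b (ρ.ρ σ) := rfl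

lemma toMatrix_stdBasis (M : MatRep A) (hM : IsContRep A M) (σ : GQ) :
    LinearMap.toMatrix (stdBasis M hM) (stdBasis M hM) ((toAdic M hM).ρ σ) = M σ := by
  show LinearMap.toMatrix (Pi.basisFun A (Fin 2)) (Pi.basisFun A (Fin 2))
    (Matrix.toLinAlgEquiv' (M σ)) = M σ
  rw [LinearMap.toMatrix_eq_toMatrix']
  exact LinearMap.toMatrix'_toLin' _

lemma isContRep_matOf (ρ : GaloisRepAdic A) (b : Module.Basis (Fin 2) A ρ.V) :
    IsContRep A (matOf ρ b) := by
  intro n
  obtain ⟨L, hL, h⟩ := ρ.isAdicContinuous n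
  refine ⟨L, hL, fun σ hσ i j => ?_⟩
  have h2 : (matOf ρ b σ - 1) i j = b.repr (ρ.ρ σ (b j) - b j) i := by
    rw [Matrix.sub_apply, matOf_apply, LinearMap.toMatrix_apply, map_sub, Finsupp.sub_apply,
      b.repr_self]
    simp [Matrix.one_apply, Finsupp.single_apply, eq_comm]
  rw [h2]
  have h3 := Submodule.mem_map_of_mem (f := (b.coord i)) (h σ hσ (b j))
  rw [Submodule.map_smul''] at h3
  exact Submodule.smul_le.mpr (fun a ha x _ => Ideal.mul_mem_right _ _ ha) h3

lemma finBasisV (ρ : GaloisRepAdic A) : Nonempty (Module.Basis (Fin 2) A ρ.V) :=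
  ⟨Module.finBasisOfFinrankEq A ρ.V ρ.finrank_eq⟩

/-- Two rank two modules with endomorphism families having the same matrices are isomorphic. -/
lemma equiv_intertwines {R V W : Type} [CommRing R] [AddCommGroup V] [Module R V]
    [AddCommGroup W] [Module R W] (b : Module.Basis (Fin 2) R V) (c : Module.Basis (Fin 2) R W)
    (f : V →ₗ[R] V) (g : W →ₗ[R] W)
    (h : LinearMap.toMatrix b b f = LinearMap.toMatrix c c g) (x : V) :
    b.equiv c (Equiv.refl _) (f x) = g (b.equiv c (Equiv.refl _) x) := by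
  suffices h' : (b.equiv c (Equiv.refl _)).toLinearMap ∘ₗ f =
      g ∘ₗ (b.equiv c (Equiv.refl _)).toLinearMap from LinearMap.congr_fun h' x
  refine b.ext fun j => c.repr.injective (Finsupp.ext fun i => ?_)
  have := congrFun (congrFun h i) j
  rw [LinearMap.toMatrix_apply, LinearMap.toMatrix_apply] at this
  simpa [Module.Basis.equiv, Finsupp.domLCongr] using this

/-- An isomorphism intertwining two endomorphisms intertwines their matrices. -/
lemma toMatrix_intertwines {R V W : Type} [CommRing R] [AddCommGroup V] [Module R V]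
    [AddCommGroup W] [Module R W] (b : Module.Basis (Fin 2) R V) (c : Module.Basis (Fin 2) R W)
    (f : V →ₗ[R] V) (g : W →ₗ[R] W) (e : V →ₗ[R] W) (h : ∀ x, e (f x) = g (e x)) :
    LinearMap.toMatrix b c e * LinearMap.toMatrix b b f =
      LinearMap.toMatrix c c g * LinearMap.toMatrix b c e := by
  rw [← LinearMap.toMatrix_comp, ← LinearMap.toMatrix_comp]
  exact congrArg _ (LinearMap.ext h)

/-- The matrix of a linear equivalence, as a unit. -/
def matUnit {R V W : Type} [CommRing R] [AddCommGroup V] [Module R V]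
    [AddCommGroup W] [Module R W] (b : Module.Basis (Fin 2) R V) (c : Module.Basis (Fin 2) R W)
    (e : V ≃ₗ[R] W) : (Matrix (Fin 2) (Fin 2) R)ˣ where
  val := LinearMap.toMatrix b c e.toLinearMap
  inv := LinearMap.toMatrix c b e.symm.toLinearMap
  val_inv := by
    rw [← LinearMap.toMatrix_comp, LinearEquiv.comp_coe]; simp
  inv_val := by
    rw [← LinearMap.toMatrix_comp, LinearEquiv.comp_coe]; simp

lemma isEquiv_of_toMatrix_eq {ρ ρ' : GaloisRepAdic A} (b : Module.Basis (Fin 2) A ρ.V)
    (b' : Module.Basis (Fin 2) A ρ'.V)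
    (h : ∀ σ, LinearMap.toMatrix b b (ρ.ρ σ) = LinearMap.toMatrix b' b' (ρ'.ρ σ)) :
    ρ.IsEquiv ρ' :=
  ⟨⟨b.equiv b' (Equiv.refl _), fun σ x => equiv_intertwines b b' _ _ (h σ) x⟩⟩

lemma isEquiv_toAdic_matOf (ρ : GaloisRepAdic A) (b : Module.Basis (Fin 2) A ρ.V) :
    ρ.IsEquiv (toAdic (matOf ρ b) (isContRep_matOf ρ b)) :=
  isEquiv_of_toMatrix_eq b (stdBasis _ _) fun σ => by rw [toMatrix_stdBasis]; rfl

lemma toAdic_congr {M N : MatRep A} (hM : IsContRep A M) (hN : IsContRep A N) (h : M = N) :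
    toAdic M hM = toAdic N hN := by subst h; rfl

lemma isEquiv_symm' {ρ ρ' : GaloisRepAdic A} (h : ρ.IsEquiv ρ') : ρ'.IsEquiv ρ := h.map (·.symm)

lemma isEquiv_trans' {ρ ρ' ρ'' : GaloisRepAdic A} (h : ρ.IsEquiv ρ') (h' : ρ'.IsEquiv ρ'') :
    ρ.IsEquiv ρ'' := h.elim fun e => h'.map fun e' => e.trans e'

/-- Equivalence of matrix models = conjugacy. -/
lemma toAdic_isEquiv_iff (M N : MatRep A) (hM : IsContRep A M) (hN : IsContRep A N) :
    (toAdic M hM).IsEquiv (toAdic N hN) ↔
      ∃ g : (Matrix (Fin 2) (Fin 2) A)ˣ, ∀ σ, g.val * M σ = N σ * g.val := by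
  constructor
  · rintro ⟨e⟩
    refine ⟨matUnit (stdBasis M hM) (stdBasis N hN) e.toLinearEquiv, fun σ => ?_⟩
    have := toMatrix_intertwines (stdBasis M hM) (stdBasis N hN) _ _ e.toLinearEquiv.toLinearMap
      (e.map_apply σ)
    rwa [toMatrix_stdBasis, toMatrix_stdBasis] at this
  · rintro ⟨g, hg⟩
    let e : (Fin 2 → A) ≃ₗ[A] (Fin 2 → A) :=
      LinearEquiv.ofLinearMap (Matrix.toLin' g.val) (Matrix.toLin' g.inv)
        (by rw [← Matrix.toLin'_mul, g.val_inv, Matrix.toLin'_one])
        (by rw [← Matrix.toLin'_mul, g.inv_val, Matrix.toLin'_one])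
    refine ⟨⟨e, fun σ x => ?_⟩⟩
    · have key : ∀ y : Fin 2 → A, Matrix.toLin' g.val (Matrix.toLin' (M σ) y) =
          Matrix.toLin' (N σ) (Matrix.toLin' g.val y) := fun y => by
        rw [← Matrix.toLin'_mul_apply, hg σ, Matrix.toLin'_mul_apply]
      exact key x

lemma isContRep_conjRep (g : (Matrix (Fin 2) (Fin 2) A)ˣ) {M : MatRep A} (hM : IsContRep A M) :
    IsContRep A (conjRep g M) := by
  intro n
  obtain ⟨L, hL, h⟩ := hM n
  refine ⟨L, hL, fun σ hσ i j => ?_⟩
  have h1 : conjRep g M σ - 1 = g.val * (M σ - 1) * g.inv := by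
    show g.val * M σ * g.inv - 1 = _
    rw [mul_sub, sub_mul, mul_one, g.val_inv]
  rw [h1, Matrix.mul_apply]
  refine Ideal.sum_mem _ fun a _ => Ideal.mul_mem_right _ _ ?_
  rw [Matrix.mul_apply]
  exact Ideal.sum_mem _ fun b _ => Ideal.mul_mem_left _ _ (h σ hσ b a)

lemma isEquiv_toAdic_conjRep (g : (Matrix (Fin 2) (Fin 2) A)ˣ) (M : MatRep A) (hM : IsContRep A M) :
    (toAdic M hM).IsEquiv (toAdic (conjRep g M) (isContRep_conjRep g hM)) :=
  (toAdic_isEquiv_iff _ _ _ _).mpr ⟨g, conjRep_intertwines g M⟩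

section BaseChange

variable {B : Type} [CommRing B] [IsLocalRing B] (φ : A →+* B)

lemma map_maximalIdeal_pow_le (hφ : IsLocalHom φ) (n : ℕ) :
    (maximalIdeal A ^ n).map φ ≤ maximalIdeal B ^ n := by
  rw [Ideal.map_pow]
  exact Ideal.pow_right_mono (Ideal.map_le_iff_le_comap.mpr fun a ha =>
    Ideal.mem_comap.mpr (haveI := hφ; map_nonunit φ a ha)) n

lemma isContRep_mapRep (hφ : IsLocalHom φ) {M : MatRep A} (hM : IsContRep A M) :
    IsContRep B (mapRep φ M) := by
  intro n
  obtain ⟨L, hL, h⟩ := hM n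
  refine ⟨L, hL, fun σ hσ i j => ?_⟩
  have h1 : (mapRep φ M σ - 1) i j = φ ((M σ - 1) i j) := by
    simp only [Matrix.sub_apply, mapRep_apply, map_sub, Matrix.one_apply]
    split_ifs <;> simp
  rw [h1]
  exact map_maximalIdeal_pow_le φ hφ n (Ideal.mem_map_of_mem _ (h σ hσ i j))

lemma baseChange_toAdic (hφ : IsLocalHom φ) (M : MatRep A) (hM : IsContRep A M) :
    ((toAdic M hM).baseChangeAlong φ hφ).IsEquiv
      (toAdic (mapRep φ M) (isContRep_mapRep φ hφ hM)) := by
  letI : Algebra A B := φ.toAlgebra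
  refine isEquiv_of_toMatrix_eq (Algebra.TensorProduct.basis B (stdBasis M hM)) (stdBasis _ _) fun σ => ?_
  rw [toMatrix_stdBasis]
  exact (LinearMap.toMatrix_baseChange _ _ _ _).trans
    (congrArg (fun X : Matrix (Fin 2) (Fin 2) A => X.map φ) (toMatrix_stdBasis M hM σ))

end BaseChange

section Residual

variable {k : Type} [Field k] (ρbar : ResidualGaloisRep k)

/-- A basis of a residual representation. -/
def resBasis : Module.Basis (Fin 2) k ρbar.V :=
  Module.finBasisOfFinrankEq k ρbar.V ρbar.finrank_eq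

/-- Matrices of the residual representation. -/
def barMat : MatRep k :=
  (LinearMap.toMatrixAlgEquiv (resBasis ρbar)).toAlgHom.toRingHom.toMonoidHom.comp ρbar.ρ

lemma barMat_apply (σ : GQ) :
    barMat ρbar σ = LinearMap.toMatrix (resBasis ρbar) (resBasis ρbar) (ρbar.ρ σ) := rfl

lemma residual_isEquiv_baseChange [Algebra k (ResidueField A)] (M : MatRep A) (hM : IsContRep A M)
    (h : ∀ σ i j, residue A (M σ i j) = algebraMap k (ResidueField A) (barMat ρbar σ i j)) :
    (toAdic M hM).residual.IsEquiv (ρbar.baseChange (ResidueField A)) := by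
  refine ⟨⟨(Algebra.TensorProduct.basis (ResidueField A) (stdBasis M hM)).equiv
    (Algebra.TensorProduct.basis (ResidueField A) (resBasis ρbar)) (Equiv.refl _), fun σ x => ?_⟩⟩
  refine equiv_intertwines _ _ _ _ ?_ x
  refine (LinearMap.toMatrix_baseChange _ _ _ _).trans (Eq.trans ?_
    (LinearMap.toMatrix_baseChange _ _ _ _).symm)
  rw [toMatrix_stdBasis, ← barMat_apply]
  exact Matrix.ext fun i j => h σ i j

lemma exists_lift_of_residual_isEquiv [Algebra k (ResidueField A)] (ρ : GaloisRepAdic A)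
    (he : ρ.residual.IsEquiv (ρbar.baseChange (ResidueField A))) :
    ∃ (M : MatRep A) (hM : IsContRep A M), ρ.IsEquiv (toAdic M hM) ∧
      ∀ σ i j, residue A (M σ i j) = algebraMap k (ResidueField A) (barMat ρbar σ i j) := by
  obtain ⟨b⟩ := finBasisV ρ
  obtain ⟨e⟩ := he
  set b1 : Module.Basis (Fin 2) (ResidueField A) ρ.residual.V := Algebra.TensorProduct.basis (ResidueField A) b
  set b2 : Module.Basis (Fin 2) (ResidueField A) (ρbar.baseChange (ResidueField A)).V :=
    Algebra.TensorProduct.basis (ResidueField A) (resBasis ρbar)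
  set P := matUnit b1 b2 e.toLinearEquiv
  obtain ⟨g0, hg0⟩ : ∃ g0 : Matrix (Fin 2) (Fin 2) A, (residue A).mapMatrix g0 = P.val := by
    refine ⟨Matrix.of fun i j => (residue_surjective (P.val i j)).choose, ?_⟩
    exact Matrix.ext fun i j => (residue_surjective (P.val i j)).choose_spec
  have hu : IsUnit g0 := by
    rw [Matrix.isUnit_iff_isUnit_det]
    refine (isUnit_map_iff (residue A) _).mp ?_
    rw [RingHom.map_det, hg0]
    exact (Matrix.isUnit_iff_isUnit_det _).mp P.isUnit
  obtain ⟨g, rfl⟩ := hu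
  refine ⟨conjRep g (matOf ρ b), isContRep_conjRep g (isContRep_matOf ρ b),
    isEquiv_trans' (isEquiv_toAdic_matOf ρ b) (isEquiv_toAdic_conjRep g _ _), fun σ i j => ?_⟩
  have key := toMatrix_intertwines b1 b2 _ _ e.toLinearEquiv.toLinearMap (e.map_apply σ)
  have hA : LinearMap.toMatrix b1 b1 (ρ.residual.ρ σ) = (residue A).mapMatrix (matOf ρ b σ) :=
    LinearMap.toMatrix_baseChange _ _ _ _
  have hB : LinearMap.toMatrix b2 b2 ((ρbar.baseChange (ResidueField A)).ρ σ) =
      (algebraMap k (ResidueField A)).mapMatrix (barMat ρbar σ) :=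
    LinearMap.toMatrix_baseChange _ _ _ _
  rw [hA, hB] at key
  have hinv : P.val * (residue A).mapMatrix g.inv = 1 := by
    rw [← hg0, ← map_mul, g.val_inv, map_one]
  have hC : (residue A).mapMatrix (conjRep g (matOf ρ b) σ) =
      (algebraMap k (ResidueField A)).mapMatrix (barMat ρbar σ) := by
    show (residue A).mapMatrix (g.val * matOf ρ b σ * g.inv) = _
    rw [map_mul, map_mul, hg0]
    calc P.val * (residue A).mapMatrix (matOf ρ b σ) * (residue A).mapMatrix g.inv
        = (algebraMap k (ResidueField A)).mapMatrix (barMat ρbar σ) *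
            (P.val * (residue A).mapMatrix g.inv) := by
          rw [← mul_assoc]; exact congrArg (· * (residue A).mapMatrix g.inv) key
      _ = _ := by rw [hinv, mul_one]
  exact congrFun (congrFun hC i) j

lemma ofResidual_isEquiv (hM : IsContRep k (barMat ρbar)) :
    (GaloisRepAdic.ofResidualGaloisRep ρbar).IsEquiv (toAdic (barMat ρbar) hM) :=
  isEquiv_of_toMatrix_eq (resBasis ρbar) (stdBasis _ _) fun σ => by
    rw [toMatrix_stdBasis]; rfl

lemma isContRep_barMat : IsContRep k (barMat ρbar) :=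
  isContRep_matOf (GaloisRepAdic.ofResidualGaloisRep ρbar) (resBasis ρbar)

end Residual

end Fermat.Agent.Deform
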