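/-
Rigidification of deformations of an absolutely irreducible representation:
three matrix entries can be prescribed, and then the lift is unique in its conjugacy class.
-/
import Mathlib
import Fermat.Agent.Deform.MatRep

set_option autoImplicit false
set_option linter.style.haveILetI false

noncomputable section

namespace Fermat.Agent.Deform

open IsLocalRing

/-- The three dimensional slice `[[x₀, x₁], [x₂, 0]]` of the Lie algebra of `PGL₂`. -/
def sliceMat {R : Type} [CommRing R] (x : Fin 3 → R) : Matrix (Fin 2) (Fin 2) R :=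
  !![x 0, x 1; x 2, 0]

/-- Index of a matrix entry of some group element. -/
abbrev EntryIdx : Type := GQ × Fin 2 × Fin 2

/-- The `(σ, i, j)` entry of a family of matrices. -/
def entryAt {R : Type} [CommRing R] (N : GQ → Matrix (Fin 2) (Fin 2) R) (p : EntryIdx) : R :=
  N p.1 p.2.1 p.2.2

/-- An entry of a twisted commutator `X N - N' X`. -/
def commAt {R : Type} [CommRing R] (X : Matrix (Fin 2) (Fin 2) R)
    (N N' : GQ → Matrix (Fin 2) (Fin 2) R) (p : EntryIdx) : R :=
  (X * N p.1 - N' p.1 * X) p.2.1 p.2.2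

lemma commAt_sliceMat {R : Type} [CommRing R] (N : GQ → Matrix (Fin 2) (Fin 2) R)
    (x : Fin 3 → R) (p : EntryIdx) :
    commAt (sliceMat x) N N p = ∑ b, commAt (sliceMat (Pi.single b 1)) N N p * x b := by
  obtain ⟨σ, i, j⟩ := p
  simp only [commAt, Matrix.sub_apply, Matrix.mul_apply, Fin.sum_univ_two, Fin.sum_univ_three]
  fin_cases i <;> fin_cases j <;> simp [sliceMat] <;> ring

lemma sliceMat_map {R S : Type} [CommRing R] [CommRing S] (f : R →+* S) (x : Fin 3 → R) :
    f.mapMatrix (sliceMat x) = sliceMat (f ∘ x) := by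
  ext i j
  fin_cases i <;> fin_cases j <;> simp [sliceMat]

lemma sliceMat_mem {R : Type} [CommRing R] {I : Ideal R} {x : Fin 3 → R} (h : ∀ b, x b ∈ I)
    (i j : Fin 2) : sliceMat x i j ∈ I := by
  fin_cases i <;> fin_cases j <;> simp [sliceMat, h]

lemma commAt_map {R S : Type} [CommRing R] [CommRing S] (f : R →+* S)
    (X : Matrix (Fin 2) (Fin 2) R) (N N' : GQ → Matrix (Fin 2) (Fin 2) R) (p : EntryIdx) :
    f (commAt X N N' p) =
      commAt (f.mapMatrix X) (fun σ => f.mapMatrix (N σ)) (fun σ => f.mapMatrix (N' σ)) p := by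
  show f ((X * N p.1 - N' p.1 * X) p.2.1 p.2.2) = _
  rw [commAt, ← map_mul, ← map_mul, ← map_sub]
  rfl

section Residual

variable {k : Type} [Field k] (ρbar : ResidualGaloisRep k)

/-- Only scalars commute with an absolutely irreducible representation. -/
lemma scalar_of_commute (habs : ρbar.IsAbsolutelyIrreducible) (X : Matrix (Fin 2) (Fin 2) k)
    (h : ∀ σ, X * barMat ρbar σ = barMat ρbar σ * X) :
    X 0 1 = 0 ∧ X 1 0 = 0 ∧ X 0 0 = X 1 1 := by
  let K := AlgebraicClosure k
  let W := (ρbar.baseChange K).V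
  let bK : Module.Basis (Fin 2) K W := Algebra.TensorProduct.basis K (resBasis ρbar)
  have hrk : Module.finrank K W = 2 := (ρbar.baseChange K).finrank_eq
  haveI : Nontrivial W := Module.nontrivial_of_finrank_eq_succ hrk
  let f : Module.End K W := Matrix.toLinAlgEquiv bK ((algebraMap k K).mapMatrix X)
  have hcomm : ∀ σ, Commute f ((ρbar.baseChange K).ρ σ) := by
    intro σ
    apply (LinearMap.toMatrixAlgEquiv bK).injective
    rw [map_mul, map_mul]
    have h1 : LinearMap.toMatrixAlgEquiv bK ((ρbar.baseChange K).ρ σ) =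
        (algebraMap k K).mapMatrix (barMat ρbar σ) := LinearMap.toMatrix_baseChange _ _ _ _
    rw [LinearMap.toMatrixAlgEquiv_toLinAlgEquiv, h1, ← map_mul, ← map_mul, h σ]
  obtain ⟨c, hc⟩ := Module.End.exists_eigenvalue f
  have htop : f.eigenspace c = ⊤ := by
    refine (habs (f.eigenspace c) fun σ x hx => ?_).resolve_left hc
    rw [Module.End.mem_eigenspace_iff] at hx ⊢
    have := LinearMap.congr_fun (hcomm σ).eq x
    simp only [Module.End.mul_apply] at this
    rw [this, hx, map_smul]
  have hf : f = algebraMap K (Module.End K W) c := by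
    refine LinearMap.ext fun x => ?_
    have hx : x ∈ f.eigenspace c := htop ▸ Submodule.mem_top
    simpa [Module.algebraMap_end_apply] using Module.End.mem_eigenspace_iff.mp hx
  have hX : (algebraMap k K).mapMatrix X = algebraMap K (Matrix (Fin 2) (Fin 2) K) c := by
    have := congrArg (LinearMap.toMatrixAlgEquiv bK) hf
    rwa [LinearMap.toMatrixAlgEquiv_toLinAlgEquiv, AlgEquiv.commutes] at this
  have he : ∀ i j, algebraMap k K (X i j) = if i = j then c else 0 := by
    intro i j
    have := congrFun (congrFun hX i) j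
    simpa [Matrix.algebraMap_matrix_apply] using this
  have hinj := (algebraMap k K).injective
  refine ⟨hinj ?_, hinj ?_, hinj ?_⟩ <;> simp [he]

lemma exists_entries (habs : ρbar.IsAbsolutelyIrreducible) :
    ∃ s : Fin 3 → EntryIdx, IsUnit (Matrix.of fun a b =>
      commAt (sliceMat (Pi.single b (1 : k))) (barMat ρbar) (barMat ρbar) (s a)).det := by
  let v : EntryIdx → (Fin 3 → k) := fun p b =>
    commAt (sliceMat (Pi.single b (1 : k))) (barMat ρbar) (barMat ρbar) p
  have hspan : Submodule.span k (Set.range v) = ⊤ := by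
    by_contra hne
    obtain ⟨φ, hφ0, hφ⟩ := Submodule.exists_dual_map_eq_bot_of_lt_top
      (lt_of_le_of_ne le_top hne) inferInstance
    refine hφ0 (LinearMap.pi_ext' fun b => LinearMap.ext_ring ?_)
    let x : Fin 3 → k := fun b => φ (Pi.single b 1)
    have hdec : ∀ w : Fin 3 → k, φ w = ∑ b, w b * x b := fun w => by
      conv_lhs => rw [pi_eq_sum_univ' w]
      simp [x, map_sum, map_smul]
    have h0 : ∀ p, commAt (sliceMat x) (barMat ρbar) (barMat ρbar) p = 0 := fun p => by
      have : φ (v p) ∈ (Submodule.span k (Set.range v)).map φ :=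
        Submodule.mem_map_of_mem (Submodule.subset_span ⟨p, rfl⟩)
      rw [hφ, Submodule.mem_bot, hdec] at this
      rw [commAt_sliceMat]; exact this
    obtain ⟨h1, h2, h3⟩ := scalar_of_commute ρbar habs (sliceMat x) fun σ =>
      sub_eq_zero.mp (Matrix.ext fun i j => h0 (σ, i, j))
    simp [sliceMat] at h1 h2 h3
    fin_cases b <;> simp [x] at * <;> assumption
  obtain ⟨w, hw, -, hli⟩ := Submodule.exists_fun_fin_finrank_span_eq k (Set.range v)
  have h3 : Module.finrank k (Submodule.span k (Set.range v)) = 3 := by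
    rw [hspan, finrank_top, Module.finrank_fin_fun]
  choose p hp using hw
  refine ⟨fun a => p (Fin.cast h3.symm a), ?_⟩
  rw [← Matrix.isUnit_iff_isUnit_det, ← Matrix.linearIndependent_rows_iff_isUnit]
  have hrow : (fun a : Fin 3 => v (p (Fin.cast h3.symm a))) = w ∘ Fin.cast h3.symm :=
    funext fun a => hp _
  show LinearIndependent k (fun a : Fin 3 => v (p (Fin.cast h3.symm a)))
  rw [hrow]
  exact hli.comp (Fin.cast h3.symm) (Fin.cast_injective _)

end Residual

variable {𝒪 : Type} [CommRing 𝒪] [IsLocalRing 𝒪]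
variable (ρbar : ResidualGaloisRep (ResidueField 𝒪))

/-- Set theoretic lift to `𝒪` of the residual matrices. -/
def liftMat (σ : GQ) : Matrix (Fin 2) (Fin 2) 𝒪 :=
  Matrix.of fun i j => (residue_surjective (barMat ρbar σ i j)).choose

lemma residue_liftMat (σ : GQ) (i j : Fin 2) :
    residue 𝒪 (liftMat ρbar σ i j) = barMat ρbar σ i j :=
  (residue_surjective (barMat ρbar σ i j)).choose_spec

lemma residue_mapMatrix_liftMat (σ : GQ) :
    (residue 𝒪).mapMatrix (liftMat ρbar σ) = barMat ρbar σ :=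
  Matrix.ext fun i j => residue_liftMat ρbar σ i j

/-- The data of three entries which rigidify lifts. -/
structure Slice where
  s : Fin 3 → EntryIdx
  Tinv : Matrix (Fin 3) (Fin 3) 𝒪
  mul_Tinv : (Matrix.of fun a b => commAt (sliceMat (Pi.single b (1 : 𝒪))) (liftMat ρbar)
    (liftMat ρbar) (s a)) * Tinv = 1
  Tinv_mul : Tinv * (Matrix.of fun a b => commAt (sliceMat (Pi.single b (1 : 𝒪))) (liftMat ρbar)
    (liftMat ρbar) (s a)) = 1

lemma slice_nonempty (habs : ρbar.IsAbsolutelyIrreducible) : Nonempty (Slice ρbar) := by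
  obtain ⟨s, hs⟩ := exists_entries ρbar habs
  set T : Matrix (Fin 3) (Fin 3) 𝒪 := Matrix.of fun a b =>
    commAt (sliceMat (Pi.single b (1 : 𝒪))) (liftMat ρbar) (liftMat ρbar) (s a)
  have hT : IsUnit T.det := by
    refine (isUnit_map_iff (residue 𝒪) _).mp ?_
    rw [RingHom.map_det]
    have hTm : (residue 𝒪).mapMatrix T = Matrix.of fun a b =>
        commAt (sliceMat (Pi.single b (1 : ResidueField 𝒪))) (barMat ρbar) (barMat ρbar) (s a) := by
      refine Matrix.ext fun a b => ?_
      show residue 𝒪 (T a b) = _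
      simp only [T, Matrix.of_apply, commAt_map, sliceMat_map, residue_mapMatrix_liftMat]
      congr 2
      funext c
      by_cases hcb : c = b <;> simp [hcb]
    rw [hTm]
    exact hs
  exact ⟨⟨s, T⁻¹, T.mul_nonsing_inv hT, T.nonsing_inv_mul hT⟩⟩

variable {ρbar} (A : Type) [CommRing A] [IsLocalRing A] [Algebra 𝒪 A]

variable (ρbar) in
/-- `M` lifts the residual representation. -/
def IsLift (M : MatRep A) : Prop :=
  ∀ σ i j, M σ i j - algebraMap 𝒪 A (liftMat ρbar σ i j) ∈ maximalIdeal A

/-- `M` has the prescribed entries. -/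
def Slice.IsNormalised (D : Slice ρbar) (M : MatRep A) : Prop :=
  ∀ a, entryAt M (D.s a) = algebraMap 𝒪 A (entryAt (liftMat ρbar) (D.s a))

variable {A}

lemma mul_sub_mem_pow_succ {n : ℕ} {X Y : Matrix (Fin 2) (Fin 2) A}
    (hX : ∀ i j, X i j ∈ maximalIdeal A ^ n) (hY : ∀ i j, Y i j ∈ maximalIdeal A) (i j : Fin 2) :
    (X * Y) i j ∈ maximalIdeal A ^ (n + 1) ∧ (Y * X) i j ∈ maximalIdeal A ^ (n + 1) := by
  constructor <;> rw [Matrix.mul_apply] <;> refine Ideal.sum_mem _ fun a _ => ?_
  · rw [pow_succ]; exact Ideal.mul_mem_mul (hX i a) (hY a j)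
  · rw [pow_succ']; exact Ideal.mul_mem_mul (hY i a) (hX a j)

lemma commAt_approx (D : Slice ρbar) {n : ℕ} {x : Fin 3 → A}
    (hx : ∀ b, x b ∈ maximalIdeal A ^ n) {M M' : MatRep A} (hM : IsLift ρbar A M)
    (hM' : IsLift ρbar A M') (a : Fin 3) :
    commAt (sliceMat x) M M' (D.s a) - ∑ b, algebraMap 𝒪 A
      (commAt (sliceMat (Pi.single b (1 : 𝒪))) (liftMat ρbar) (liftMat ρbar) (D.s a)) * x b
        ∈ maximalIdeal A ^ (n + 1) := by
  set L : GQ → Matrix (Fin 2) (Fin 2) A := fun σ => (algebraMap 𝒪 A).mapMatrix (liftMat ρbar σ)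
  have h1 : ∀ b, algebraMap 𝒪 A (commAt (sliceMat (Pi.single b (1 : 𝒪))) (liftMat ρbar)
      (liftMat ρbar) (D.s a)) = commAt (sliceMat (Pi.single b (1 : A))) L L (D.s a) := fun b => by
    rw [commAt_map, sliceMat_map]
    congr 2
    funext c
    by_cases hcb : c = b <;> simp [hcb]
  simp_rw [h1]
  rw [← commAt_sliceMat]
  obtain ⟨σ, i, j⟩ := D.s a
  have h2 : commAt (sliceMat x) M M' (σ, i, j) - commAt (sliceMat x) L L (σ, i, j) =
      (sliceMat x * (M σ - L σ)) i j - ((M' σ - L σ) * sliceMat x) i j := by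
    show (sliceMat x * M σ - M' σ * sliceMat x) i j - (sliceMat x * L σ - L σ * sliceMat x) i j = _
    rw [mul_sub, sub_mul]
    simp only [Matrix.sub_apply]
    ring
  rw [h2]
  exact sub_mem (mul_sub_mem_pow_succ (sliceMat_mem hx) (fun i j => hM σ i j) i j).1
    (mul_sub_mem_pow_succ (sliceMat_mem hx) (fun i j => hM' σ i j) i j).2

lemma mem_of_commAt_mem (D : Slice ρbar) {n : ℕ} {x : Fin 3 → A}
    (hx : ∀ b, x b ∈ maximalIdeal A ^ n) {M M' : MatRep A} (hM : IsLift ρbar A M)
    (hM' : IsLift ρbar A M')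
    (h : ∀ a, commAt (sliceMat x) M M' (D.s a) ∈ maximalIdeal A ^ (n + 1)) (b : Fin 3) :
    x b ∈ maximalIdeal A ^ (n + 1) := by
  set T : Matrix (Fin 3) (Fin 3) A := (algebraMap 𝒪 A).mapMatrix
    (Matrix.of fun a b => commAt (sliceMat (Pi.single b (1 : 𝒪))) (liftMat ρbar)
      (liftMat ρbar) (D.s a))
  have hTx : ∀ a, T.mulVec x a ∈ maximalIdeal A ^ (n + 1) := fun a => by
    have := sub_mem (h a) (commAt_approx D hx hM hM' a)
    rw [sub_sub_cancel] at this
    exact this
  have hx' : x = ((algebraMap 𝒪 A).mapMatrix D.Tinv).mulVec (T.mulVec x) := by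
    rw [Matrix.mulVec_mulVec, ← map_mul, D.Tinv_mul, map_one, Matrix.one_mulVec]
  rw [hx', Matrix.mulVec, dotProduct]
  exact Ideal.sum_mem _ fun a _ => Ideal.mul_mem_left _ _ (hTx a)

variable [IsLocalHom (algebraMap 𝒪 A)]

lemma residue_of_isLift {M : MatRep A} (hM : IsLift ρbar A M) (σ : GQ) :
    (residue A).mapMatrix (M σ) =
      (ResidueField.map (algebraMap 𝒪 A)).mapMatrix (barMat ρbar σ) := by
  ext i j
  show residue A (M σ i j) = ResidueField.map (algebraMap 𝒪 A) (barMat ρbar σ i j)
  rw [← residue_liftMat, ResidueField.map_residue, ← sub_eq_zero, ← map_sub, residue_eq_zero_iff]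
  exact hM σ i j

/-- Conjugate normalised lifts are equal. -/
theorem Slice.normalised_unique (D : Slice ρbar) (habs : ρbar.IsAbsolutelyIrreducible)
    [IsHausdorff (maximalIdeal A) A]
    (hres : Function.Surjective (residue A ∘ algebraMap 𝒪 A)) {M M' : MatRep A}
    (hM : IsLift ρbar A M) (hM' : IsLift ρbar A M') (hN : D.IsNormalised A M)
    (hN' : D.IsNormalised A M') (g : (Matrix (Fin 2) (Fin 2) A)ˣ)
    (hg : ∀ σ, g.val * M σ = M' σ * g.val) : M = M' := by
  let ι := ResidueField.map (algebraMap 𝒪 A)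
  choose c hc using fun i j => hres (residue A (g.val i j))
  let Xb : Matrix (Fin 2) (Fin 2) (ResidueField 𝒪) := Matrix.of fun i j => residue 𝒪 (c i j)
  have hXb : ι.mapMatrix Xb = (residue A).mapMatrix g.val := by
    ext i j
    exact (ResidueField.map_residue _ _).trans (hc i j)
  have hcomm : ∀ σ, Xb * barMat ρbar σ = barMat ρbar σ * Xb := fun σ => by
    apply Matrix.map_injective ι.injective
    show ι.mapMatrix _ = ι.mapMatrix _
    rw [map_mul, map_mul, hXb]
    conv_lhs => rw [← residue_of_isLift hM σ, ← map_mul, hg σ, map_mul, residue_of_isLift hM' σ]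
  obtain ⟨h01, h10, h00⟩ := scalar_of_commute ρbar habs Xb hcomm
  have hr : ∀ i j, residue A (g.val i j) = ι (Xb i j) := fun i j =>
    (congrFun (congrFun hXb i) j).symm
  have hu : IsUnit (g.val 1 1) := by
    by_contra hnu
    have h11 : residue A (g.val 1 1) = 0 := (residue_eq_zero_iff _).mpr hnu
    have hd : residue A g.val.det = 0 := by
      rw [Matrix.det_fin_two, map_sub, map_mul, map_mul, h11, hr 0 1, h01, map_zero]
      ring
    exact ((Matrix.isUnit_iff_isUnit_det _).mp g.isUnit).map (residue A) |>.ne_zero hd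
  obtain ⟨u, hu⟩ := hu
  let x : Fin 3 → A :=
    ![u.inv * g.val 0 0 - 1, u.inv * g.val 0 1, u.inv * g.val 1 0]
  have hgx : u.inv • g.val = 1 + sliceMat x := by
    ext i j
    fin_cases i <;> fin_cases j <;>
      simp [sliceMat, x, Matrix.add_apply, ← hu]
  have hx1 : ∀ b, x b ∈ maximalIdeal A ^ 1 := by
    intro b
    rw [pow_one, ← residue_eq_zero_iff]
    have hu' : residue A u.inv * residue A (g.val 1 1) = 1 := by
      rw [← map_mul, ← hu, u.inv_val, map_one]
    have hinv : residue A u.inv = (residue A u.val)⁻¹ :=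
      eq_inv_of_mul_eq_one_left (by rw [← map_mul, u.inv_val, map_one])
    rw [hr 1 1, ← h00, ← hr 0 0] at hu'
    fin_cases b <;> simp [x, hr 0 1, hr 1 0, h01, h10]
    rw [← hinv]
    exact sub_eq_zero.mpr hu'
  have hrel : ∀ σ i j, (M σ - M' σ) i j + commAt (sliceMat x) M M' (σ, i, j) = 0 := by
    intro σ i j
    have h : (1 + sliceMat x) * M σ - M' σ * (1 + sliceMat x) = 0 := by
      rw [← hgx, smul_mul_assoc, mul_smul_comm, hg σ, sub_self]
    have h' : (M σ - M' σ) + (sliceMat x * M σ - M' σ * sliceMat x) = 0 := by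
      rw [← h]; noncomm_ring
    exact congrFun (congrFun h' i) j
  have hxn : ∀ n b, x b ∈ maximalIdeal A ^ (n + 1) := by
    intro n
    induction n with
    | zero => exact hx1
    | succ n ih =>
      refine mem_of_commAt_mem D ih hM hM' fun a => ?_
      have h := hrel (D.s a).1 (D.s a).2.1 (D.s a).2.2
      have h' : (M (D.s a).1 - M' (D.s a).1) (D.s a).2.1 (D.s a).2.2 = 0 := by
        rw [Matrix.sub_apply]; exact sub_eq_zero.mpr ((hN a).trans (hN' a).symm)
      rw [h', zero_add] at h
      rw [show commAt (sliceMat x) M M' (D.s a) = 0 from h]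
      exact zero_mem _
  have hx0 : ∀ b, x b = 0 := fun b =>
    IsHausdorff.haus (inferInstance : IsHausdorff (maximalIdeal A) A) _ fun n => by
    rw [SModEq.zero, smul_eq_mul, Ideal.mul_top]
    cases n with
    | zero => simp
    | succ n => exact hxn n b
  refine matRep_ext fun σ i j => ?_
  have h := hrel σ i j
  have hX : sliceMat x = 0 := by
    ext i j
    fin_cases i <;> fin_cases j <;> simp [sliceMat, hx0]
  simpa [commAt, hX, Matrix.sub_apply, sub_eq_zero] using h

omit [IsLocalRing A] in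
lemma mem_smul_top_iff' (I : Ideal A) (x : A) : x ∈ (I • ⊤ : Submodule A A) ↔ x ∈ I := by
  simp

omit [IsLocalHom (algebraMap 𝒪 A)] in
lemma isLift_conjRep {g : (Matrix (Fin 2) (Fin 2) A)ˣ} {M : MatRep A} (hM : IsLift ρbar A M)
    (hg : ∀ i j, (g.val - 1) i j ∈ maximalIdeal A) : IsLift ρbar A (conjRep g M) := by
  intro σ i j
  have h1 : (residue A).mapMatrix g.val = 1 := by
    rw [← sub_eq_zero, ← map_one (residue A).mapMatrix, ← map_sub]
    exact Matrix.ext fun a b => (residue_eq_zero_iff _).mpr (hg a b)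
  have h2 : (residue A).mapMatrix g.inv = 1 := by
    have := congrArg (residue A).mapMatrix g.val_inv
    rwa [map_mul, h1, one_mul, map_one] at this
  rw [← residue_eq_zero_iff, map_sub, sub_eq_zero]
  have : (residue A).mapMatrix (conjRep g M σ) = (residue A).mapMatrix (M σ) := by
    show (residue A).mapMatrix (g.val * M σ * g.inv) = _
    rw [map_mul, map_mul, h1, h2, one_mul, mul_one]
  refine (congrFun (congrFun this i) j).trans ?_
  exact sub_eq_zero.mp ((map_sub _ _ _).symm.trans ((residue_eq_zero_iff _).mpr (hM σ i j)))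

/-- The error of a candidate conjugator. -/
def Slice.err (D : Slice ρbar) (M : MatRep A) (g : (Matrix (Fin 2) (Fin 2) A)ˣ) (a : Fin 3) : A :=
  algebraMap 𝒪 A (entryAt (liftMat ρbar) (D.s a)) - entryAt (conjRep g M) (D.s a)

omit [IsLocalHom (algebraMap 𝒪 A)] in
lemma Slice.improve (D : Slice ρbar) {M : MatRep A} (hM : IsLift ρbar A M) (n : ℕ)
    (g : (Matrix (Fin 2) (Fin 2) A)ˣ) (hg : ∀ i j, (g.val - 1) i j ∈ maximalIdeal A)
    (he : ∀ a, D.err M g a ∈ maximalIdeal A ^ (n + 1)) :
    ∃ g' : (Matrix (Fin 2) (Fin 2) A)ˣ, (∀ i j, (g'.val - g.val) i j ∈ maximalIdeal A ^ (n + 1)) ∧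
      ∀ a, D.err M g' a ∈ maximalIdeal A ^ (n + 1 + 1) := by
  set M' := conjRep g M
  have hM' : IsLift ρbar A M' := isLift_conjRep hM hg
  let x : Fin 3 → A := ((algebraMap 𝒪 A).mapMatrix D.Tinv).mulVec (D.err M g)
  have hx : ∀ b, x b ∈ maximalIdeal A ^ (n + 1) := fun b => by
    show ((algebraMap 𝒪 A).mapMatrix D.Tinv).mulVec (D.err M g) b ∈ _
    rw [Matrix.mulVec, dotProduct]
    exact Ideal.sum_mem _ fun a _ => Ideal.mul_mem_left _ _ (he a)
  have hx1 : ∀ b, x b ∈ maximalIdeal A := fun b => Ideal.pow_le_self n.succ_ne_zero (hx b)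
  have hu : IsUnit (1 + sliceMat x) := by
    rw [Matrix.isUnit_iff_isUnit_det]
    refine (isUnit_map_iff (residue A) _).mp ?_
    rw [RingHom.map_det]
    have : (residue A).mapMatrix (1 + sliceMat x) = 1 := by
      rw [map_add, map_one, add_eq_left]
      exact Matrix.ext fun i j => (residue_eq_zero_iff _).mpr (sliceMat_mem hx1 i j)
    rw [this, Matrix.det_one]
    exact isUnit_one
  obtain ⟨h, hh⟩ := hu
  refine ⟨h * g, fun i j => ?_, fun a => ?_⟩
  · have h1 : (h * g).val - g.val = sliceMat x * g.val := by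
      rw [Units.val_mul, hh, add_mul, one_mul, add_sub_cancel_left]
    rw [h1, Matrix.mul_apply]
    exact Ideal.sum_mem _ fun b _ => Ideal.mul_mem_right _ _ (sliceMat_mem hx i b)
  · have hconj : conjRep (h * g) M = conjRep h M' := MonoidHom.ext fun σ => by
      show h.val * g.val * M σ * (g.inv * h.inv) = h.val * (g.val * M σ * g.inv) * h.inv
      simp only [mul_assoc]
    rw [Slice.err, hconj]
    obtain ⟨σ, i, j, hs⟩ : ∃ σ i j, D.s a = (σ, i, j) := ⟨_, _, _, rfl⟩
    have hd : conjRep h M' σ - M' σ = (sliceMat x * M' σ - M' σ * sliceMat x) * h.inv := by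
      show h.val * M' σ * h.inv - M' σ = _
      have h3 : h.val * M' σ - M' σ * h.val = sliceMat x * M' σ - M' σ * sliceMat x := by
        rw [hh]; noncomm_ring
      rw [← h3, sub_mul, mul_assoc (M' σ), h.val_inv, mul_one]
    set C := sliceMat x * M' σ - M' σ * sliceMat x
    have hC : ∀ i j, C i j ∈ maximalIdeal A ^ (n + 1) := fun i j => by
      simp only [C, Matrix.sub_apply, Matrix.mul_apply]
      exact sub_mem (Ideal.sum_mem _ fun b _ => Ideal.mul_mem_right _ _ (sliceMat_mem hx i b))
        (Ideal.sum_mem _ fun b _ => Ideal.mul_mem_left _ _ (sliceMat_mem hx b j))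
    have hinv : ∀ i j, (h.inv - 1) i j ∈ maximalIdeal A := by
      intro i j
      have h4 : h.inv - 1 = -(sliceMat x * h.inv) := by
        have := h.val_inv
        rw [hh, add_mul, one_mul] at this
        rw [← this]; abel
      rw [h4, Matrix.neg_apply, Matrix.mul_apply]
      exact neg_mem (Ideal.sum_mem _ fun b _ => Ideal.mul_mem_right _ _ (sliceMat_mem hx1 i b))
    have hC' : (C * h.inv) i j - C i j ∈ maximalIdeal A ^ (n + 1 + 1) := by
      have := (mul_sub_mem_pow_succ hC hinv i j).1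
      rwa [mul_sub, mul_one, Matrix.sub_apply] at this
    have happ := commAt_approx D hx hM' hM' a
    have hTx : ∑ b, algebraMap 𝒪 A (commAt (sliceMat (Pi.single b (1 : 𝒪))) (liftMat ρbar)
        (liftMat ρbar) (D.s a)) * x b = D.err M g a := by
      show ((algebraMap 𝒪 A).mapMatrix (Matrix.of fun a b => commAt (sliceMat (Pi.single b (1 : 𝒪)))
        (liftMat ρbar) (liftMat ρbar) (D.s a))).mulVec x a = _
      rw [Matrix.mulVec_mulVec, ← map_mul, D.mul_Tinv, map_one, Matrix.one_mulVec]
    rw [hTx] at happ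
    have hd' : conjRep h M' σ i j = M' σ i j + (C * h.inv) i j := by
      rw [← hd, Matrix.sub_apply]; ring
    simp only [Slice.err, hs, entryAt, commAt] at happ ⊢
    rw [hd']
    have : algebraMap 𝒪 A (liftMat ρbar σ i j) - (M' σ i j + (C * h.inv) i j) =
        -(C i j - (algebraMap 𝒪 A (liftMat ρbar σ i j) - M' σ i j)) -
          ((C * h.inv) i j - C i j) := by ring
    rw [this]
    exact sub_mem (neg_mem happ) hC'

omit [IsLocalHom (algebraMap 𝒪 A)] in
/-- Every lift over a complete local ring is conjugate to a normalised one. -/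
theorem Slice.exists_normalised (D : Slice ρbar) [IsAdicComplete (maximalIdeal A) A]
    {M : MatRep A} (hM : IsLift ρbar A M) :
    ∃ g : (Matrix (Fin 2) (Fin 2) A)ˣ, IsLift ρbar A (conjRep g M) ∧
      D.IsNormalised A (conjRep g M) := by
  let St (n : ℕ) := {g : (Matrix (Fin 2) (Fin 2) A)ˣ // (∀ i j, (g.val - 1) i j ∈ maximalIdeal A) ∧
    ∀ a, D.err M g a ∈ maximalIdeal A ^ (n + 1)}
  have s0 : St 0 := ⟨1, fun i j => by simp, fun a => by
    rw [pow_one, ← residue_eq_zero_iff, Slice.err, map_sub, ← map_sub, residue_eq_zero_iff]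
    rw [← neg_mem_iff, neg_sub]
    have h1 : conjRep (1 : (Matrix (Fin 2) (Fin 2) A)ˣ) M = M := MonoidHom.ext fun σ => by
      show (1 : Matrix (Fin 2) (Fin 2) A) * M σ * 1 = M σ
      rw [one_mul, mul_one]
    rw [h1]
    exact hM _ _ _⟩
  have step : ∀ n (g : St n), ∃ g' : St (n + 1),
      ∀ i j, (g'.1.val - g.1.val) i j ∈ maximalIdeal A ^ (n + 1) := by
    intro n g
    obtain ⟨g', hg', he'⟩ := D.improve hM n g.1 g.2.1 g.2.2
    refine ⟨⟨g', fun i j => ?_, he'⟩, hg'⟩
    rw [← sub_add_sub_cancel g'.val g.1.val 1, Matrix.add_apply]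
    exact add_mem (Ideal.pow_le_self n.succ_ne_zero (hg' i j)) (g.2.1 i j)
  choose next hnext using step
  let seq : ∀ n, St n := fun n => Nat.rec s0 next n
  have hcauchy : ∀ m n, m ≤ n → ∀ i j,
      ((seq n).1.val - (seq m).1.val) i j ∈ maximalIdeal A ^ (m + 1) := by
    intro m n hmn i j
    induction n, hmn using Nat.le_induction with
    | base => simp
    | succ n hmn ih =>
      rw [← sub_add_sub_cancel _ (seq n).1.val (seq m).1.val, Matrix.add_apply]
      exact add_mem (Ideal.pow_le_pow_right (by omega) (hnext n (seq n) i j)) ih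
  have hlim : ∀ i j : Fin 2, ∃ L : A, ∀ n, (seq n).1.val i j ≡ L
      [SMOD (maximalIdeal A ^ n • ⊤ : Submodule A A)] := fun i j => by
    refine IsPrecomplete.prec inferInstance (f := fun n => (seq n).1.val i j) fun {m n} hmn => ?_
    rw [SModEq.sub_mem, mem_smul_top_iff', ← neg_mem_iff, neg_sub]
    exact Ideal.pow_le_pow_right m.le_succ (hcauchy m n hmn i j)
  choose L hL using hlim
  have hGn : ∀ n i j, (Matrix.of L - (seq n).1.val) i j ∈ maximalIdeal A ^ (n + 1) := by
    intro n i j
    have h1 := hL i j (n + 1)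
    rw [SModEq.sub_mem, mem_smul_top_iff'] at h1
    have h2 : (Matrix.of L - (seq n).1.val) i j = -((seq (n+1)).1.val i j - L i j) +
        ((seq (n+1)).1.val - (seq n).1.val) i j := by
      simp [Matrix.sub_apply]
    rw [h2]
    exact add_mem (neg_mem h1) (hcauchy n (n+1) n.le_succ i j)
  have hG1 : ∀ i j, (Matrix.of L - 1) i j ∈ maximalIdeal A := fun i j => by
    rw [← sub_add_sub_cancel (Matrix.of L) (seq 0).1.val 1, Matrix.add_apply]
    exact add_mem (by simpa using hGn 0 i j) ((seq 0).2.1 i j)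
  have hu : IsUnit (Matrix.of L) := by
    rw [Matrix.isUnit_iff_isUnit_det]
    refine (isUnit_map_iff (residue A) _).mp ?_
    rw [RingHom.map_det]
    have : (residue A).mapMatrix (Matrix.of L) = 1 := by
      rw [← sub_eq_zero, ← map_one (residue A).mapMatrix, ← map_sub]
      exact Matrix.ext fun a b => (residue_eq_zero_iff _).mpr (hG1 a b)
    rw [this, Matrix.det_one]
    exact isUnit_one
  obtain ⟨G, hG⟩ := hu
  refine ⟨G, isLift_conjRep hM (hG ▸ hG1), fun a => ?_⟩
  refine (sub_eq_zero.mp ?_).symm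
  refine IsHausdorff.haus (inferInstance : IsHausdorff (maximalIdeal A) A) _ fun n => ?_
  rw [SModEq.zero, mem_smul_top_iff']
  let q := Ideal.Quotient.mk (maximalIdeal A ^ (n + 1))
  have hq : q.mapMatrix G.val = q.mapMatrix (seq n).1.val := by
    rw [← sub_eq_zero, ← map_sub]
    exact Matrix.ext fun i j => Ideal.Quotient.eq_zero_iff_mem.mpr (hG ▸ hGn n i j)
  have hq' : q.mapMatrix G.inv = q.mapMatrix (seq n).1.inv := by
    calc q.mapMatrix G.inv
        = q.mapMatrix ((seq n).1.inv * (seq n).1.val) * q.mapMatrix G.inv := by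
          rw [(seq n).1.inv_val, map_one, one_mul]
      _ = q.mapMatrix (seq n).1.inv * (q.mapMatrix G.val * q.mapMatrix G.inv) := by
          rw [map_mul, hq, mul_assoc]
      _ = _ := by rw [← map_mul, G.val_inv, map_one, mul_one]
  have hc : q.mapMatrix (conjRep G M (D.s a).1) =
      q.mapMatrix (conjRep (seq n).1 M (D.s a).1) := by
    show q.mapMatrix (G.val * M _ * G.inv) = q.mapMatrix ((seq n).1.val * M _ * (seq n).1.inv)
    rw [map_mul, map_mul, map_mul, map_mul, hq, hq']
  have hc' : q (entryAt (conjRep G M) (D.s a)) = q (entryAt (conjRep (seq n).1 M) (D.s a)) :=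
    congrFun (congrFun hc (D.s a).2.1) (D.s a).2.2
  refine Ideal.pow_le_pow_right n.le_succ (Ideal.Quotient.eq_zero_iff_mem.mp (?_ : q _ = 0))
  rw [map_sub, hc', ← map_sub, Ideal.Quotient.eq_zero_iff_mem]
  exact (seq n).2.2 a

end Fermat.Agent.Deform
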