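/-
The finite quotients of the ring of matrix entries which carry normalised deformations.
-/
import Mathlib
import Fermat.Prelude.Def_GaloisRep_DeformationCondition
import Fermat.Agent.Deform.Slice

set_option autoImplicit false
set_option linter.style.haveILetI false

noncomputable section

namespace Fermat.Agent.Deform

open IsLocalRing GaloisRep

/-- Algebra maps out of artinian local rings into local rings are local. -/
lemma isLocalHom_of_isArtinian {A B : Type} [CommRing A] [IsLocalRing A] [IsArtinianRing A]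
    [CommRing B] [Nontrivial B] (f : A →+* B) : IsLocalHom f := by
  refine ⟨fun a ha => ?_⟩
  by_contra h
  obtain ⟨N, hN⟩ := (isArtinianRing_iff_isNilpotent_maximalIdeal A).mp ‹_›
  have h1 : a ^ N ∈ maximalIdeal A ^ N := Ideal.pow_mem_pow h N
  rw [hN, Ideal.zero_eq_bot, Ideal.mem_bot] at h1
  exact (ha.pow N).ne_zero (by rw [← map_pow, h1, map_zero])

/-- The ring of universal matrix entries. -/
abbrev EntryRing (𝒪 : Type) [CommRing 𝒪] : Type := MvPolynomial EntryIdx 𝒪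

variable {𝒪 : Type} [CommRing 𝒪] [IsLocalRing 𝒪]
variable (ρbar : ResidualGaloisRep (ResidueField 𝒪))

/-- The point corresponding to the residual representation. -/
def entryPoint : EntryRing 𝒪 →+* ResidueField 𝒪 :=
  MvPolynomial.eval₂Hom (residue 𝒪) fun p => entryAt (barMat ρbar) p

/-- The maximal ideal of the residual point. -/
def pointIdeal : Ideal (EntryRing 𝒪) := RingHom.ker (entryPoint ρbar)

lemma entryPoint_X (p : EntryIdx) :
    entryPoint ρbar (MvPolynomial.X p) = entryAt (barMat ρbar) p :=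
  MvPolynomial.eval₂Hom_X' _ _ _

lemma entryPoint_C (c : 𝒪) : entryPoint ρbar (MvPolynomial.C c) = residue 𝒪 c :=
  MvPolynomial.eval₂Hom_C _ _ _

lemma entryPoint_surjective : Function.Surjective (entryPoint ρbar) := fun x =>
  let ⟨c, hc⟩ := residue_surjective x
  ⟨MvPolynomial.C c, by rw [entryPoint_C, hc]⟩

instance : (pointIdeal ρbar).IsMaximal :=
  RingHom.ker_isMaximal_of_surjective _ (entryPoint_surjective ρbar)

lemma C_mem_pointIdeal {c : 𝒪} (hc : c ∈ maximalIdeal 𝒪) :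
    MvPolynomial.C c ∈ pointIdeal ρbar := by
  rw [pointIdeal, RingHom.mem_ker, entryPoint_C, residue_eq_zero_iff]
  exact hc

lemma X_sub_C_mem_pointIdeal (σ : GQ) (i j : Fin 2) :
    MvPolynomial.X (σ, i, j) - MvPolynomial.C (liftMat ρbar σ i j) ∈ pointIdeal ρbar := by
  rw [pointIdeal, RingHom.mem_ker, map_sub, entryPoint_X, entryPoint_C, residue_liftMat]
  exact sub_self _

variable {ρbar}

lemma isLocalRing_quot {I : Ideal (EntryRing 𝒪)} (hI : I ≤ pointIdeal ρbar) {N : ℕ}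
    (hN : pointIdeal ρbar ^ N ≤ I) : IsLocalRing (EntryRing 𝒪 ⧸ I) := by
  refine IsLocalRing.of_unique_max_ideal
    ⟨(pointIdeal ρbar).map (Ideal.Quotient.mk I), ?_, fun J hJ => ?_⟩
  · exact Ideal.IsMaximal.map_of_surjective_of_ker_le Ideal.Quotient.mk_surjective
      (by rwa [Ideal.mk_ker])
  · haveI := Ideal.comap_isMaximal_of_surjective (Ideal.Quotient.mk I)
      Ideal.Quotient.mk_surjective (K := J)
    have h : pointIdeal ρbar ≤ J.comap (Ideal.Quotient.mk I) :=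
      this.isPrime.le_of_pow_le (hN.trans fun x hx => by
        rw [Ideal.mem_comap, Ideal.Quotient.eq_zero_iff_mem.mpr hx]; exact J.zero_mem)
    rw [Ideal.IsMaximal.eq_of_le inferInstance this.ne_top h,
      Ideal.map_comap_of_surjective _ Ideal.Quotient.mk_surjective]

variable {I : Ideal (EntryRing 𝒪)} [IsLocalRing (EntryRing 𝒪 ⧸ I)]

lemma maximalIdeal_quot (hI : I ≤ pointIdeal ρbar) :
    maximalIdeal (EntryRing 𝒪 ⧸ I) = (pointIdeal ρbar).map (Ideal.Quotient.mk I) :=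
  (IsLocalRing.eq_maximalIdeal (Ideal.IsMaximal.map_of_surjective_of_ker_le
    Ideal.Quotient.mk_surjective (by rwa [Ideal.mk_ker]))).symm

lemma mk_mem_maximalIdeal (hI : I ≤ pointIdeal ρbar) {p : EntryRing 𝒪}
    (hp : p ∈ pointIdeal ρbar) : Ideal.Quotient.mk I p ∈ maximalIdeal (EntryRing 𝒪 ⧸ I) := by
  rw [maximalIdeal_quot hI]
  exact Ideal.mem_map_of_mem _ hp

lemma isTest_quot (hI : I ≤ pointIdeal ρbar) [Finite (EntryRing 𝒪 ⧸ I)] :
    IsArtinianTestAlgebra 𝒪 (EntryRing 𝒪 ⧸ I) where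
  isLocalHom := by
    refine ⟨fun c hc => ?_⟩
    by_contra h
    exact (mk_mem_maximalIdeal hI (C_mem_pointIdeal ρbar h)) hc
  residue_surjective x := by
    obtain ⟨y, rfl⟩ := residue_surjective x
    obtain ⟨p, rfl⟩ := Ideal.Quotient.mk_surjective y
    obtain ⟨c, hc⟩ := residue_surjective (entryPoint ρbar p)
    refine ⟨c, ?_⟩
    rw [Function.comp_apply, ← sub_eq_zero, ← map_sub, residue_eq_zero_iff]
    show Ideal.Quotient.mk I (MvPolynomial.C c) - Ideal.Quotient.mk I p ∈ _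
    rw [← map_sub]
    refine mk_mem_maximalIdeal hI ?_
    rw [pointIdeal, RingHom.mem_ker, map_sub, entryPoint_C, hc, sub_self]
  isArtinian := inferInstance

variable (ρbar) (𝒟 : ∀ ⦃A : Type⦄ [CommRing A] [IsLocalRing A] [Algebra 𝒪 A], GaloisRepAdic A → Prop)

omit [IsLocalRing (EntryRing 𝒪 ⧸ I)] in
/-- `M` is the tautological matrix representation modulo `I`. -/
def IsTaut (I : Ideal (EntryRing 𝒪)) (M : MatRep (EntryRing 𝒪 ⧸ I)) : Prop :=
  ∀ σ i j, M σ i j = Ideal.Quotient.mk I (MvPolynomial.X (σ, i, j))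

variable {ρbar}

lemma isLift_of_isTaut (hI : I ≤ pointIdeal ρbar) {M : MatRep (EntryRing 𝒪 ⧸ I)}
    (hM : IsTaut I M) : IsLift ρbar (EntryRing 𝒪 ⧸ I) M := fun σ i j => by
  rw [hM σ i j]
  show Ideal.Quotient.mk I _ - Ideal.Quotient.mk I (MvPolynomial.C _) ∈ _
  rw [← map_sub]
  exact mk_mem_maximalIdeal hI (X_sub_C_mem_pointIdeal ρbar σ i j)

omit [IsLocalRing 𝒪] in
lemma isTaut_ext {J : Ideal (EntryRing 𝒪)} {M N : MatRep (EntryRing 𝒪 ⧸ J)} (hM : IsTaut J M)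
    (hN : IsTaut J N) : M = N := matRep_ext fun σ i j => (hM σ i j).trans (hN σ i j).symm

/-- Ideals whose quotient is a finite local algebra on which the tautological matrices form a
normalised deformation of type `𝒟`. -/
structure IsGood (D : Slice ρbar) (I : Ideal (EntryRing 𝒪)) : Prop where
  pow_le : ∃ N, pointIdeal ρbar ^ N ≤ I
  le : I ≤ pointIdeal ρbar
  finite : Finite (EntryRing 𝒪 ⧸ I)
  rep : ∃ (_ : IsLocalRing (EntryRing 𝒪 ⧸ I)) (M : MatRep (EntryRing 𝒪 ⧸ I))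
    (hM : IsContRep _ M), IsTaut I M ∧ D.IsNormalised _ M ∧ 𝒟 (toAdic M hM)

omit [IsLocalRing (EntryRing 𝒪 ⧸ I)] in
/-- Evaluation at the entries of a matrix representation. -/
def entryEval {A : Type} [CommRing A] [Algebra 𝒪 A] (M : MatRep A) : EntryRing 𝒪 →ₐ[𝒪] A :=
  MvPolynomial.aeval fun p => entryAt M p

omit [IsLocalRing 𝒪] in
lemma entryEval_X {A : Type} [CommRing A] [Algebra 𝒪 A] (M : MatRep A) (σ : GQ) (i j : Fin 2) :
    entryEval M (MvPolynomial.X (σ, i, j) : EntryRing 𝒪) = M σ i j :=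
  MvPolynomial.aeval_X _ _

section Artinian

variable {A : Type} [CommRing A] [IsLocalRing A]

lemma exists_level [IsArtinianRing A] {M : MatRep A} (hM : IsContRep A M) :
    ∃ L : IntermediateField ℚ (AlgebraicClosure ℚ), FiniteDimensional ℚ L ∧
      ∀ σ : GQ, (∀ x ∈ L, σ x = x) → M σ = 1 := by
  obtain ⟨N, hN⟩ := (isArtinianRing_iff_isNilpotent_maximalIdeal A).mp ‹_›
  obtain ⟨L, hL, h⟩ := hM N
  refine ⟨L, hL, fun σ hσ => sub_eq_zero.mp (Matrix.ext fun i j => ?_)⟩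
  have := h σ hσ i j
  rwa [hN, Ideal.zero_eq_bot, Ideal.mem_bot] at this

lemma isContRep_of_level {M : MatRep A} (L : IntermediateField ℚ (AlgebraicClosure ℚ))
    (hL : FiniteDimensional ℚ L) (h : ∀ σ : GQ, (∀ x ∈ L, σ x = x) → M σ = 1) :
    IsContRep A M :=
  fun n => ⟨L, hL, fun σ hσ i j => by rw [h σ hσ, sub_self]; exact zero_mem _⟩

variable [Algebra 𝒪 A]

lemma residue_entryEval [IsLocalHom (algebraMap 𝒪 A)] {M : MatRep A} (hM : IsLift ρbar A M)
    (p : EntryRing 𝒪) :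
    residue A (entryEval M p) = ResidueField.map (algebraMap 𝒪 A) (entryPoint ρbar p) := by
  suffices (residue A).comp (entryEval M).toRingHom =
      (ResidueField.map (algebraMap 𝒪 A)).comp (entryPoint ρbar) from RingHom.congr_fun this p
  refine MvPolynomial.ringHom_ext (fun c => ?_) fun q => ?_
  · simp [entryEval, entryPoint_C]
  · obtain ⟨σ, i, j⟩ := q
    simp only [RingHom.comp_apply, AlgHom.toRingHom_eq_coe, RingHom.coe_coe, entryEval_X,
      entryPoint_X]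
    exact congrFun (congrFun (residue_of_isLift hM σ) i) j

lemma entryEval_mem_maximalIdeal [IsLocalHom (algebraMap 𝒪 A)] {M : MatRep A}
    (hM : IsLift ρbar A M) {p : EntryRing 𝒪} (hp : p ∈ pointIdeal ρbar) :
    entryEval M p ∈ maximalIdeal A := by
  rw [← residue_eq_zero_iff, residue_entryEval hM, RingHom.mem_ker.mp hp, map_zero]

lemma finite_of_isTest [Finite (ResidueField 𝒪)] (hA : IsArtinianTestAlgebra 𝒪 A) : Finite A := by
  haveI := hA.isArtinian
  haveI := hA.isLocalHom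
  haveI : Finite (ResidueField A) := by
    refine Finite.of_surjective (ResidueField.map (algebraMap 𝒪 A)) fun x => ?_
    obtain ⟨c, hc⟩ := hA.residue_surjective x
    exact ⟨residue 𝒪 c, (ResidueField.map_residue _ _).trans hc⟩
  haveI : Finite (A ⧸ maximalIdeal A) := ‹Finite (ResidueField A)›
  obtain ⟨N, hN⟩ := (isArtinianRing_iff_isNilpotent_maximalIdeal A).mp hA.isArtinian
  haveI := Ideal.finite_quotient_pow (I := maximalIdeal A) (IsNoetherian.noetherian _) N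
  refine Finite.of_injective (Ideal.Quotient.mk (maximalIdeal A ^ N)) ?_
  rw [RingHom.injective_iff_ker_eq_bot, Ideal.mk_ker, hN, Ideal.zero_eq_bot]

variable {𝒟}

/-- The kernel of the evaluation at a normalised deformation is good. -/
theorem isGood_ker [Finite (ResidueField 𝒪)] (D : Slice ρbar) (h𝒟 : IsDeformationCondition 𝒪 𝒟)
    (hA : IsArtinianTestAlgebra 𝒪 A) {M : MatRep A} {hMc : IsContRep A M}
    (hM : IsLift ρbar A M) (hN : D.IsNormalised A M) (hMD : 𝒟 (toAdic M hMc)) :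
    IsGood 𝒟 D (RingHom.ker (entryEval (𝒪 := 𝒪) M)) := by
  haveI := hA.isArtinian
  haveI := hA.isLocalHom
  haveI := finite_of_isTest hA
  set θ := entryEval (𝒪 := 𝒪) M with hθ
  set I := RingHom.ker θ with hIdef
  have hle : I ≤ pointIdeal ρbar := by
    intro p hp
    rw [pointIdeal, RingHom.mem_ker]
    refine (ResidueField.map (algebraMap 𝒪 A)).injective ?_
    rw [← residue_entryEval hM, RingHom.mem_ker.mp hp, map_zero, map_zero]
  obtain ⟨N, hN0⟩ := (isArtinianRing_iff_isNilpotent_maximalIdeal A).mp hA.isArtinian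
  have hpow : pointIdeal ρbar ^ N ≤ I := by
    intro p hp
    have h1 : θ p ∈ (pointIdeal ρbar).map θ ^ N := by
      rw [← Ideal.map_pow]; exact Ideal.mem_map_of_mem _ hp
    have h2 : (pointIdeal ρbar).map θ ≤ maximalIdeal A :=
      Ideal.map_le_iff_le_comap.mpr fun q hq => entryEval_mem_maximalIdeal hM hq
    have h3 := Ideal.pow_right_mono h2 N h1
    rw [hN0, Ideal.zero_eq_bot, Ideal.mem_bot] at h3
    exact h3
  let ψ : EntryRing 𝒪 ⧸ I →ₐ[𝒪] A := Ideal.kerLiftAlg θ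
  have hψ : Function.Injective ψ := Ideal.kerLiftAlg_injective θ
  haveI : Finite (EntryRing 𝒪 ⧸ I) := Finite.of_injective ψ hψ
  haveI : IsLocalRing (EntryRing 𝒪 ⧸ I) := isLocalRing_quot hle hpow
  have hentry : ∀ σ i j, ψ (Ideal.Quotient.mk I (MvPolynomial.X (σ, i, j))) = M σ i j :=
    fun σ i j => entryEval_X M σ i j
  let t : GQ → Matrix (Fin 2) (Fin 2) (EntryRing 𝒪 ⧸ I) :=
    fun σ => Matrix.of fun i j => Ideal.Quotient.mk I (MvPolynomial.X (σ, i, j))
  have ht : ∀ σ, (ψ : EntryRing 𝒪 ⧸ I →+* A).mapMatrix (t σ) = M σ :=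
    fun σ => Matrix.ext (hentry σ)
  have hinj : Function.Injective ((ψ : EntryRing 𝒪 ⧸ I →+* A).mapMatrix (m := Fin 2)) :=
    Matrix.map_injective hψ
  let M' : MatRep (EntryRing 𝒪 ⧸ I) :=
    { toFun := t
      map_one' := hinj (by rw [ht, map_one, map_one])
      map_mul' := fun σ τ => hinj (by rw [ht, map_mul, map_mul, ht, ht]) }
  obtain ⟨L, hL, hLM⟩ := exists_level hMc
  have hM'c : IsContRep _ M' := isContRep_of_level L hL fun σ hσ =>
    hinj (by rw [map_one]; exact (ht σ).trans (hLM σ hσ))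
  refine ⟨⟨N, hpow⟩, hle, inferInstance, inferInstance, M', hM'c, fun _ _ _ => rfl, fun a => ?_, ?_⟩
  · refine hψ ?_
    rw [AlgHom.commutes]
    exact (hentry _ _ _).trans (hN a)
  · have hT := isTest_quot (I := I) hle
    haveI := hT.isArtinian
    have hψl : IsLocalHom (ψ : EntryRing 𝒪 ⧸ I →+* A) :=
      isLocalHom_of_isArtinian _
    refine h𝒟.of_baseChangeAlong_injective hT hA ψ hψl hψ ?_
    refine h𝒟.of_isEquiv hA (isEquiv_symm' (baseChange_toAdic _ hψl M' hM'c)) ?_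
    have hMM : mapRep (ψ : EntryRing 𝒪 ⧸ I →+* A) M' = M := matRep_ext hentry
    rwa [toAdic_congr (isContRep_mapRep _ hψl hM'c) hMc hMM]

end Artinian

variable {𝒟}
variable {D : Slice ρbar}

omit [IsLocalRing (EntryRing 𝒪 ⧸ I)] in
theorem IsGood.mono (h𝒟 : IsDeformationCondition 𝒪 𝒟) (hI : IsGood 𝒟 D I) {J : Ideal (EntryRing 𝒪)}
    (hIJ : I ≤ J) (hJ : J ≤ pointIdeal ρbar) : IsGood 𝒟 D J := by
  obtain ⟨⟨N, hN⟩, hle, hfin, hloc, M, hMc, hMt, hMn, hMD⟩ := hI
  haveI := hloc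
  haveI := hfin
  haveI : IsLocalRing (EntryRing 𝒪 ⧸ J) := isLocalRing_quot hJ (hN.trans hIJ)
  let q : EntryRing 𝒪 ⧸ I →ₐ[𝒪] EntryRing 𝒪 ⧸ J := Ideal.Quotient.factorₐ 𝒪 hIJ
  have hq : Function.Surjective q := Ideal.Quotient.factor_surjective hIJ
  haveI : Finite (EntryRing 𝒪 ⧸ J) := Finite.of_surjective q hq
  have hT := isTest_quot (I := I) hle
  haveI := hT.isArtinian
  have hql : IsLocalHom (q : EntryRing 𝒪 ⧸ I →+* EntryRing 𝒪 ⧸ J) :=
    isLocalHom_of_isArtinian _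
  have hTJ := isTest_quot (I := J) hJ
  refine ⟨⟨N, hN.trans hIJ⟩, hJ, inferInstance, inferInstance,
    mapRep (q : EntryRing 𝒪 ⧸ I →+* EntryRing 𝒪 ⧸ J) M, isContRep_mapRep _ hql hMc,
    fun σ i j => ?_, fun a => ?_, ?_⟩
  · rw [mapRep_apply, hMt σ i j]; rfl
  · show q (entryAt M (D.s a)) = _
    rw [hMn a, AlgHom.commutes]
  · exact h𝒟.of_isEquiv hTJ (baseChange_toAdic _ hql M hMc)
      (h𝒟.baseChangeAlong hT hTJ q hql hMD)

omit [IsLocalRing (EntryRing 𝒪 ⧸ I)] in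
theorem IsGood.inf (h𝒟 : IsDeformationCondition 𝒪 𝒟) {J : Ideal (EntryRing 𝒪)}
    (hI : IsGood 𝒟 D I) (hJ : IsGood 𝒟 D J) : IsGood 𝒟 D (I ⊓ J) := by
  obtain ⟨⟨N1, hN1⟩, hI0, hIf, hIl, M1, hM1c, hM1t, hM1n, hM1D⟩ := hI
  obtain ⟨⟨N2, hN2⟩, hJ0, hJf, hJl, M2, hM2c, hM2t, hM2n, hM2D⟩ := hJ
  haveI := hIl; haveI := hJl; haveI := hIf; haveI := hJf
  have hN : pointIdeal ρbar ^ max N1 N2 ≤ I ⊓ J :=
    le_inf ((Ideal.pow_le_pow_right (le_max_left _ _)).trans hN1)
      ((Ideal.pow_le_pow_right (le_max_right _ _)).trans hN2)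
  have hle : I ⊓ J ≤ pointIdeal ρbar := inf_le_left.trans hI0
  haveI : IsLocalRing (EntryRing 𝒪 ⧸ I ⊓ J) := isLocalRing_quot hle hN
  haveI : IsLocalRing (EntryRing 𝒪 ⧸ I ⊔ J) :=
    isLocalRing_quot (sup_le hI0 hJ0) (hN1.trans le_sup_left)
  let f : EntryRing 𝒪 ⧸ I →ₐ[𝒪] EntryRing 𝒪 ⧸ I ⊔ J := Ideal.Quotient.factorₐ 𝒪 le_sup_left
  let g : EntryRing 𝒪 ⧸ J →ₐ[𝒪] EntryRing 𝒪 ⧸ I ⊔ J := Ideal.Quotient.factorₐ 𝒪 le_sup_right
  let pA : EntryRing 𝒪 ⧸ I ⊓ J →ₐ[𝒪] EntryRing 𝒪 ⧸ I := Ideal.Quotient.factorₐ 𝒪 inf_le_left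
  let pB : EntryRing 𝒪 ⧸ I ⊓ J →ₐ[𝒪] EntryRing 𝒪 ⧸ J := Ideal.Quotient.factorₐ 𝒪 inf_le_right
  have hcomm : f.comp pA = g.comp pB :=
    AlgHom.ext fun x => by obtain ⟨p, rfl⟩ := Ideal.Quotient.mk_surjective x; rfl
  have hinj : Function.Injective fun x => (pA x, pB x) := by
    intro x y hxy
    obtain ⟨p, rfl⟩ := Ideal.Quotient.mk_surjective x
    obtain ⟨q, rfl⟩ := Ideal.Quotient.mk_surjective y
    simp only [Prod.mk.injEq] at hxy
    exact Ideal.Quotient.eq.mpr ⟨Ideal.Quotient.eq.mp hxy.1, Ideal.Quotient.eq.mp hxy.2⟩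
  haveI : Finite (EntryRing 𝒪 ⧸ I ⊓ J) := Finite.of_injective _ hinj
  haveI : Finite (EntryRing 𝒪 ⧸ I ⊔ J) :=
    Finite.of_surjective f (Ideal.Quotient.factor_surjective le_sup_left)
  have hTP := isTest_quot (I := I ⊓ J) hle
  haveI := hTP.isArtinian
  have hA := isTest_quot (I := I) hI0
  have hB := isTest_quot (I := J) hJ0
  have hC := isTest_quot (I := I ⊔ J) (sup_le hI0 hJ0)
  have hpA : IsLocalHom (pA : EntryRing 𝒪 ⧸ I ⊓ J →+* EntryRing 𝒪 ⧸ I) :=
    isLocalHom_of_isArtinian _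
  have hpB : IsLocalHom (pB : EntryRing 𝒪 ⧸ I ⊓ J →+* EntryRing 𝒪 ⧸ J) :=
    isLocalHom_of_isArtinian _
  let t : GQ → Matrix (Fin 2) (Fin 2) (EntryRing 𝒪 ⧸ I ⊓ J) :=
    fun σ => Matrix.of fun i j => Ideal.Quotient.mk _ (MvPolynomial.X (σ, i, j))
  have h1 : ∀ σ, (pA : EntryRing 𝒪 ⧸ I ⊓ J →+* EntryRing 𝒪 ⧸ I).mapMatrix (t σ) = M1 σ :=
    fun σ => Matrix.ext fun i j => (hM1t σ i j).symm
  have h2 : ∀ σ, (pB : EntryRing 𝒪 ⧸ I ⊓ J →+* EntryRing 𝒪 ⧸ J).mapMatrix (t σ) = M2 σ :=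
    fun σ => Matrix.ext fun i j => (hM2t σ i j).symm
  have hext : ∀ X Y : Matrix (Fin 2) (Fin 2) (EntryRing 𝒪 ⧸ I ⊓ J),
      (pA : EntryRing 𝒪 ⧸ I ⊓ J →+* EntryRing 𝒪 ⧸ I).mapMatrix X =
        (pA : EntryRing 𝒪 ⧸ I ⊓ J →+* EntryRing 𝒪 ⧸ I).mapMatrix Y →
      (pB : EntryRing 𝒪 ⧸ I ⊓ J →+* EntryRing 𝒪 ⧸ J).mapMatrix X =
        (pB : EntryRing 𝒪 ⧸ I ⊓ J →+* EntryRing 𝒪 ⧸ J).mapMatrix Y → X = Y :=
    fun X Y hA hB => Matrix.ext fun i j =>
      hinj (Prod.ext (congrFun (congrFun hA i) j) (congrFun (congrFun hB i) j))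
  let M : MatRep (EntryRing 𝒪 ⧸ I ⊓ J) :=
    { toFun := t
      map_one' := hext _ _ (by rw [h1, map_one, map_one]) (by rw [h2, map_one, map_one])
      map_mul' := fun σ τ => hext _ _ (by rw [h1, map_mul, map_mul, h1, h1])
        (by rw [h2, map_mul, map_mul, h2, h2]) }
  haveI := hA.isArtinian
  haveI := hB.isArtinian
  obtain ⟨L1, hL1, hL1'⟩ := exists_level hM1c
  obtain ⟨L2, hL2, hL2'⟩ := exists_level hM2c
  haveI := hL1; haveI := hL2
  have hMc : IsContRep _ M := isContRep_of_level (L1 ⊔ L2) inferInstance fun σ hσ =>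
    hext _ _ (by rw [map_one]; exact (h1 σ).trans (hL1' σ fun x hx => hσ x (le_sup_left (a := L1) hx)))
      (by rw [map_one]; exact (h2 σ).trans (hL2' σ fun x hx => hσ x (le_sup_right (a := L1) hx)))
  refine ⟨⟨_, hN⟩, hle, inferInstance, inferInstance, M, hMc, fun _ _ _ => rfl, fun a => ?_, ?_⟩
  · refine hinj (Prod.ext ?_ ?_)
    · show pA _ = pA _
      rw [AlgHom.commutes, ← hM1n a]; exact (hM1t _ _ _).symm
    · show pB _ = pB _
      rw [AlgHom.commutes, ← hM2n a]; exact (hM2t _ _ _).symm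
  · refine h𝒟.of_fibreProduct hA hB hC hTP f g pA pB hpA hpB hcomm hinj ?_ ?_ ?_
    · intro a b hab
      obtain ⟨p, rfl⟩ := Ideal.Quotient.mk_surjective a
      obtain ⟨q, rfl⟩ := Ideal.Quotient.mk_surjective b
      obtain ⟨u, hu, v, hv, huv⟩ := Submodule.mem_sup.mp (Ideal.Quotient.eq.mp hab)
      refine ⟨Ideal.Quotient.mk _ (p - u), Ideal.Quotient.eq.mpr ?_, Ideal.Quotient.eq.mpr ?_⟩
      · simpa using neg_mem hu
      · rwa [show p - u - q = v by rw [sub_right_comm, ← huv]; abel]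
    · refine h𝒟.of_isEquiv hA (isEquiv_symm' (baseChange_toAdic _ hpA M hMc)) ?_
      rwa [toAdic_congr (isContRep_mapRep _ hpA hMc) hM1c (MonoidHom.ext h1)]
    · refine h𝒟.of_isEquiv hB (isEquiv_symm' (baseChange_toAdic _ hpB M hMc)) ?_
      rwa [toAdic_congr (isContRep_mapRep _ hpB hMc) hM2c (MonoidHom.ext h2)]

/-- The residual point is good. -/
theorem isGood_pointIdeal [Finite (ResidueField 𝒪)] (D : Slice ρbar)
    (h𝒟 : IsDeformationCondition 𝒪 𝒟)
    (hbar : 𝒟 (GaloisRepAdic.ofResidualGaloisRep ρbar)) :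
    IsGood 𝒟 D (pointIdeal ρbar) := by
  have hk : IsArtinianTestAlgebra 𝒪 (ResidueField 𝒪) := by
    refine ⟨⟨fun c hc => ?_⟩, fun x => ?_, inferInstance⟩
    · rw [ResidueField.algebraMap_eq] at hc
      exact (isUnit_map_iff (residue 𝒪) c).mp hc
    · obtain ⟨y, rfl⟩ := residue_surjective x
      obtain ⟨c, rfl⟩ := residue_surjective y
      exact ⟨c, rfl⟩
  have hlift : IsLift ρbar (ResidueField 𝒪) (barMat ρbar) := fun σ i j => by
    rw [ResidueField.algebraMap_eq, residue_liftMat, sub_self]; exact zero_mem _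
  have h := isGood_ker D h𝒟 hk (M := barMat ρbar) (hMc := isContRep_barMat ρbar) hlift
    (fun a => (residue_liftMat ρbar _ _ _).symm)
    (h𝒟.of_isEquiv hk (ofResidual_isEquiv ρbar _) hbar)
  have he : RingHom.ker (entryEval (𝒪 := 𝒪) (barMat ρbar)) = pointIdeal ρbar := by
    have : (entryEval (𝒪 := 𝒪) (barMat ρbar)).toRingHom = entryPoint ρbar :=
      MvPolynomial.ringHom_ext (fun c => by simp [entryEval, entryPoint_C])
        (fun q => by simp [entryEval, entryPoint_X])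
    rw [pointIdeal, ← this]; rfl
  rwa [← he]

end Fermat.Agent.Deform
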