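/-
Power series over a complete local ring: the maximal ideal and completeness for it.
-/
import Mathlib

set_option autoImplicit false

noncomputable section

namespace Fermat.Agent.Deform

open IsLocalRing MvPowerSeries

variable {σ : Type} {𝒪 : Type} [CommRing 𝒪] [IsLocalRing 𝒪]

/-- Elements whose coefficient in degree `d` lies in the `(n - d)`-th power of the maximal ideal. -/
def coeffIdeal (n : ℕ) : Ideal (MvPowerSeries σ 𝒪) where
  carrier := {f | ∀ d, coeff d f ∈ maximalIdeal 𝒪 ^ (n - d.degree)}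
  zero_mem' d := by simp
  add_mem' {f g} hf hg d := by
    rw [map_add]
    exact add_mem (hf d) (hg d)
  smul_mem' r f hf d := by
    classical
    rw [smul_eq_mul, coeff_mul]
    refine Ideal.sum_mem _ fun p hp => Ideal.mul_mem_left _ _ ?_
    refine Ideal.pow_le_pow_right ?_ (hf p.2)
    have h := congrArg Finsupp.degree (Finset.HasAntidiagonal.mem_antidiagonal.mp hp)
    rw [map_add] at h
    omega

lemma mem_coeffIdeal {n : ℕ} {f : MvPowerSeries σ 𝒪} :
    f ∈ coeffIdeal n ↔ ∀ d, coeff d f ∈ maximalIdeal 𝒪 ^ (n - d.degree) := Iff.rfl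

lemma mul_mem_coeffIdeal {a b : ℕ} {f g : MvPowerSeries σ 𝒪} (hf : f ∈ coeffIdeal a)
    (hg : g ∈ coeffIdeal b) : f * g ∈ coeffIdeal (a + b) := by
  classical
  intro d
  rw [coeff_mul]
  refine Ideal.sum_mem _ fun p hp => ?_
  have h := congrArg Finsupp.degree (Finset.HasAntidiagonal.mem_antidiagonal.mp hp)
  rw [map_add] at h
  refine Ideal.pow_le_pow_right ?_ ((pow_add (maximalIdeal 𝒪) _ _).symm ▸
    Ideal.mul_mem_mul (hf p.1) (hg p.2))
  omega

lemma mem_maximalIdeal_iff (f : MvPowerSeries σ 𝒪) :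
    f ∈ maximalIdeal (MvPowerSeries σ 𝒪) ↔ constantCoeff f ∈ maximalIdeal 𝒪 := by
  simp [isUnit_iff_constantCoeff]

lemma maximalIdeal_pow_le_coeffIdeal (n : ℕ) :
    maximalIdeal (MvPowerSeries σ 𝒪) ^ n ≤ coeffIdeal n := by
  induction n with
  | zero => intro f _ d; simp
  | succ n ih =>
    rw [pow_succ]
    refine Ideal.mul_le.mpr fun f hf g hg => mul_mem_coeffIdeal (ih hf) ?_
    intro d
    by_cases hd : d = 0
    · subst hd
      simpa using (mem_maximalIdeal_iff g).mp hg
    · have : 1 ≤ d.degree :=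
        Nat.one_le_iff_ne_zero.mpr fun h => hd ((Finsupp.degree_eq_zero_iff d).mp h)
      rw [show 1 - d.degree = 0 by omega, pow_zero, Ideal.one_eq_top]
      trivial

lemma monomial_one_mem_pow (d : σ →₀ ℕ) :
    monomial d (1 : 𝒪) ∈ maximalIdeal (MvPowerSeries σ 𝒪) ^ d.degree := by
  induction d using Finsupp.induction with
  | zero => simp
  | single_add i b d _ _ ih =>
    have hX : (X i : MvPowerSeries σ 𝒪) ∈ maximalIdeal _ := by
      rw [mem_maximalIdeal_iff, constantCoeff_X]; exact zero_mem _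
    have h : monomial (Finsupp.single i b + d) (1 : 𝒪) = X i ^ b * monomial d 1 := by
      rw [X_pow_eq, monomial_mul_monomial, one_mul]
    rw [h, map_add, Finsupp.degree_single, pow_add]
    exact Ideal.mul_mem_mul (Ideal.pow_mem_pow hX b) ih

lemma C_mem_pow {c : 𝒪} {k : ℕ} (hc : c ∈ maximalIdeal 𝒪 ^ k) :
    C c ∈ maximalIdeal (MvPowerSeries σ 𝒪) ^ k := by
  refine SetLike.le_def.mp ?_ (Ideal.mem_map_of_mem (C : 𝒪 →+* MvPowerSeries σ 𝒪) hc)
  rw [Ideal.map_pow]
  refine Ideal.pow_right_mono (Ideal.map_le_iff_le_comap.mpr fun a ha => ?_) k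
  rw [Ideal.mem_comap, mem_maximalIdeal_iff, constantCoeff_C]
  exact ha

lemma monomial_mem_pow {d : σ →₀ ℕ} {c : 𝒪} {n : ℕ}
    (hc : c ∈ maximalIdeal 𝒪 ^ (n - d.degree)) :
    monomial d c ∈ maximalIdeal (MvPowerSeries σ 𝒪) ^ n := by
  have h : monomial d c = C c * monomial d (1 : 𝒪) := by
    rw [← monomial_zero_eq_C_apply, monomial_mul_monomial, zero_add, mul_one]
  rw [h]
  refine Ideal.pow_le_pow_right (show n ≤ (n - d.degree) + d.degree by omega) ?_
  rw [pow_add]
  exact Ideal.mul_mem_mul (C_mem_pow hc) (monomial_one_mem_pow d)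

variable [Finite σ]

lemma mem_pow_of_coeff_eq_zero {n : ℕ} {f : MvPowerSeries σ 𝒪}
    (hf : ∀ d, d.degree < n → coeff d f = 0) :
    f ∈ maximalIdeal (MvPowerSeries σ 𝒪) ^ n := by
  let e := toAdicCompletionAlgEquiv σ 𝒪
  have h0 : AdicCompletion.eval (MvPolynomial.idealOfVars σ 𝒪) _ n (e f) = 0 := by
    show (toAdicCompletion σ 𝒪 f).val n = 0
    have h : truncTotal n f = 0 := by
      ext d
      by_cases hd : d.degree < n
      · rw [coeff_truncTotal _ hd, hf d hd]; rfl
      · rw [coeff_truncTotal_eq_zero _ (by omega)]; rfl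
    rw [toAdicCompletion_apply_eq_mk_truncTotal, h, map_zero]
  rw [← LinearMap.mem_ker, ← AdicCompletion.pow_smul_top_eq_ker_eval
    (MvPolynomial.idealOfVars_fg σ 𝒪)] at h0
  have h1 := Submodule.mem_map_of_mem (f := e.symm.toLinearMap) h0
  rw [Submodule.map_smul'', Submodule.map_top, LinearMap.range_eq_top.mpr e.symm.surjective,
    Ideal.smul_top_eq_map] at h1
  simp only [AlgEquiv.toLinearMap_apply, AlgEquiv.symm_apply_apply,
    Submodule.restrictScalars_mem, Ideal.map_pow] at h1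
  refine Ideal.pow_right_mono ?_ n h1
  rw [MvPolynomial.idealOfVars, Ideal.map_span, Ideal.span_le]
  rintro _ ⟨_, ⟨i, rfl⟩, rfl⟩
  rw [SetLike.mem_coe, mem_maximalIdeal_iff]
  show constantCoeff ((MvPolynomial.X i : MvPolynomial σ 𝒪) : MvPowerSeries σ 𝒪) ∈ _
  rw [MvPolynomial.coe_X, constantCoeff_X]
  exact zero_mem _

lemma mem_maximalIdeal_pow_iff {n : ℕ} {f : MvPowerSeries σ 𝒪} :
    f ∈ maximalIdeal (MvPowerSeries σ 𝒪) ^ n ↔
      ∀ d, coeff d f ∈ maximalIdeal 𝒪 ^ (n - d.degree) := by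
  refine ⟨fun h => maximalIdeal_pow_le_coeffIdeal n h, fun h => ?_⟩
  let t : MvPolynomial σ 𝒪 := truncTotal n f
  have h1 : f - (t : MvPowerSeries σ 𝒪) ∈ maximalIdeal (MvPowerSeries σ 𝒪) ^ n :=
    mem_pow_of_coeff_eq_zero fun d hd => by
      rw [map_sub, MvPolynomial.coeff_coe, coeff_truncTotal _ hd, sub_self]
  have h2 : (t : MvPowerSeries σ 𝒪) ∈ maximalIdeal (MvPowerSeries σ 𝒪) ^ n := by
    rw [← MvPolynomial.coeToMvPowerSeries.ringHom_apply, t.as_sum, map_sum]
    refine Ideal.sum_mem _ fun d hd => ?_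
    rw [MvPolynomial.coeToMvPowerSeries.ringHom_apply, MvPolynomial.coe_monomial]
    refine monomial_mem_pow ?_
    by_cases hdn : d.degree < n
    · rw [coeff_truncTotal _ hdn]; exact h d
    · rw [show n - d.degree = 0 by omega, pow_zero, Ideal.one_eq_top]; trivial
  simpa using add_mem h1 h2

/-- Power series over a complete local ring are complete for the maximal ideal. -/
theorem isAdicComplete_mvPowerSeries [IsAdicComplete (maximalIdeal 𝒪) 𝒪] :
    IsAdicComplete (maximalIdeal (MvPowerSeries σ 𝒪)) (MvPowerSeries σ 𝒪) where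
  haus' f hf := by
    ext d
    rw [map_zero]
    refine IsHausdorff.haus (inferInstance : IsHausdorff (maximalIdeal 𝒪) 𝒪) _ fun n => ?_
    have h := hf (n + d.degree)
    rw [SModEq.zero, smul_eq_mul, Ideal.mul_top, mem_maximalIdeal_pow_iff] at h
    rw [SModEq.zero, smul_eq_mul, Ideal.mul_top]
    simpa using h d
  prec' f hf := by
    have hcoef : ∀ d : σ →₀ ℕ, ∃ L : 𝒪, ∀ n, coeff d (f (n + d.degree)) ≡ L
        [SMOD (maximalIdeal 𝒪 ^ n • ⊤ : Submodule 𝒪 𝒪)] := by
      intro d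
      refine IsPrecomplete.prec inferInstance fun {m n} hmn => ?_
      have h := hf (show m + d.degree ≤ n + d.degree by omega)
      rw [SModEq.sub_mem, smul_eq_mul, Ideal.mul_top, mem_maximalIdeal_pow_iff] at h
      rw [SModEq.sub_mem, smul_eq_mul, Ideal.mul_top, ← map_sub]
      simpa using h d
    choose L hL using hcoef
    obtain ⟨g, hg⟩ : ∃ g : MvPowerSeries σ 𝒪, ∀ d, coeff d g = L d := ⟨L, fun d => rfl⟩
    refine ⟨g, fun n => ?_⟩
    rw [SModEq.sub_mem, smul_eq_mul, Ideal.mul_top, mem_maximalIdeal_pow_iff]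
    intro d
    by_cases hdn : d.degree ≤ n
    · have h := hL d (n - d.degree)
      rw [SModEq.sub_mem, smul_eq_mul, Ideal.mul_top,
        show n - d.degree + d.degree = n by omega] at h
      rwa [map_sub, hg]
    · rw [show n - d.degree = 0 by omega, pow_zero, Ideal.one_eq_top]; trivial

end Fermat.Agent.Deform
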