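/-
Finite tangent space bounds the square zero good quotients.
-/
import Mathlib
import Fermat.Agent.Deform.Good

set_option autoImplicit false
set_option linter.style.haveILetI false

noncomputable section

namespace Fermat.Agent.Deform

open IsLocalRing GaloisRep

variable {𝒪 : Type} [CommRing 𝒪] [IsLocalRing 𝒪]
variable (ρbar : ResidualGaloisRep (ResidueField 𝒪))

/-- The ideal `𝔪₀² + 𝔪_𝒪 P`. -/
def tangentIdeal : Ideal (EntryRing 𝒪) :=
  pointIdeal ρbar ^ 2 ⊔ (maximalIdeal 𝒪).map (MvPolynomial.C : 𝒪 →+* EntryRing 𝒪)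

variable {ρbar}

lemma tangentIdeal_le : tangentIdeal ρbar ≤ pointIdeal ρbar :=
  sup_le (Ideal.pow_le_self two_ne_zero)
    (Ideal.map_le_iff_le_comap.mpr fun _ hc => C_mem_pointIdeal ρbar hc)

variable {𝒟 : ∀ ⦃A : Type⦄ [CommRing A] [IsLocalRing A] [Algebra 𝒪 A], GaloisRepAdic A → Prop}
variable {D : Slice ρbar}

/-- `DualNumber k` as `𝒪`-algebra. -/
@[reducible] def dualAlgebra : Algebra 𝒪 (DualNumber (ResidueField 𝒪)) :=
  ((algebraMap (ResidueField 𝒪) (DualNumber (ResidueField 𝒪))).comp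
    (algebraMap 𝒪 (ResidueField 𝒪))).toAlgebra

/-- A derivation at a point gives a map to dual numbers. -/
def dualHom {Q k : Type} [CommRing Q] [CommRing k] (π : Q →+* k) (d : Q →+ k)
    (hd : ∀ u v, d (u * v) = π u * d v + π v * d u) (h1 : d 1 = 0) : Q →+* DualNumber k where
  toFun q := TrivSqZeroExt.inl (π q) + TrivSqZeroExt.inr (d q)
  map_one' := by rw [map_one, h1]; simp
  map_mul' u v := by
    apply TrivSqZeroExt.ext
    · simp
    · simp [hd, mul_comm]
  map_zero' := by simp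
  map_add' u v := by
    apply TrivSqZeroExt.ext <;> simp

lemma dualHom_snd {Q k : Type} [CommRing Q] [CommRing k] (π : Q →+* k) (d : Q →+ k)
    (hd : ∀ u v, d (u * v) = π u * d v + π v * d u) (h1 : d 1 = 0) (q : Q) :
    (dualHom π d hd h1 q).snd = d q := by
  simp [dualHom]

lemma dualHom_of_zero {Q k : Type} [CommRing Q] [CommRing k] (π : Q →+* k) (d : Q →+ k)
    (hd : ∀ u v, d (u * v) = π u * d v + π v * d u) (h1 : d 1 = 0) (q : Q) (h : d q = 0) :
    dualHom π d hd h1 q = TrivSqZeroExt.inl (π q) := by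
  simp [dualHom, h]

theorem tangent_bound [Finite (ResidueField 𝒪)] (habs : ρbar.IsAbsolutelyIrreducible)
    (h𝒟 : IsDeformationCondition 𝒪 𝒟) (hfin : TangentFinite 𝒪 ρbar 𝒟) :
    ∃ B : ℕ, ∀ I, IsGood 𝒟 D I → tangentIdeal ρbar ≤ I → Nat.card (EntryRing 𝒪 ⧸ I) ≤ B := by
  letI := dualAlgebra (𝒪 := 𝒪)
  set k := ResidueField 𝒪
  set DN := DualNumber (ResidueField 𝒪)
  letI : Algebra k (ResidueField DN) :=
    ((IsLocalRing.residue DN).comp (algebraMap k DN)).toAlgebra
  let T := {ρ : GaloisRepAdic DN //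
    𝒟 ρ ∧ ρ.residual.IsEquiv (ρbar.baseChange (ResidueField DN))}
  let st : Setoid T := ⟨fun ρ ρ' => ρ.1.IsEquiv ρ'.1, ⟨fun ρ => ⟨GaloisRepAdic.Equiv.refl ρ.1⟩,
    fun ⟨e⟩ => ⟨e.symm⟩, fun ⟨e⟩ ⟨e'⟩ => ⟨e.trans e'⟩⟩⟩
  haveI hfin' : Finite (Quotient st) := hfin
  haveI : Finite DN := inferInstanceAs (Finite (k × k))
  have hDN : IsArtinianTestAlgebra 𝒪 DN := by
    refine ⟨⟨fun c hc => ?_⟩, fun x => ?_, inferInstance⟩
    · have h : IsUnit (algebraMap k DN (residue 𝒪 c)) := hc
      have h' := h.map (TrivSqZeroExt.fstHom k k k)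
      rw [AlgHom.commutes] at h'
      exact (isUnit_map_iff (residue 𝒪) c).mp h'
    · obtain ⟨y, rfl⟩ := residue_surjective x
      obtain ⟨c, hc⟩ := residue_surjective y.fst
      refine ⟨c, ?_⟩
      rw [Function.comp_apply, ← sub_eq_zero, ← map_sub, residue_eq_zero_iff]
      intro hu
      have h1 := hu.map (TrivSqZeroExt.fstHom k k k)
      rw [map_sub] at h1
      refine h1.ne_zero (sub_eq_zero.mpr ?_)
      exact hc
  haveI := hDN.isLocalHom
  haveI := hDN.isArtinian
  refine ⟨Nat.card k * Nat.card (Quotient st), fun I hI hE => ?_⟩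
  obtain ⟨-, hle, hfinI, hloc, M, hMc, hMt, hMn, hMD⟩ := hI
  haveI := hfinI; haveI := hloc
  set Q := EntryRing 𝒪 ⧸ I
  have hQ : IsArtinianTestAlgebra 𝒪 Q := isTest_quot hle
  haveI := hQ.isArtinian
  letI : Algebra k Q := (Ideal.Quotient.lift (maximalIdeal 𝒪) (algebraMap 𝒪 Q) fun c hc =>
    Ideal.Quotient.eq_zero_iff_mem.mpr
      (hE (Ideal.mem_sup_right (Ideal.mem_map_of_mem _ hc)))).toAlgebra
  have halg : ∀ c, algebraMap k Q (residue 𝒪 c) = algebraMap 𝒪 Q c := fun c => rfl
  let π : Q →ₐ[k] k :=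
    { Ideal.Quotient.lift I (entryPoint ρbar) (fun p hp => RingHom.mem_ker.mp (hle hp)) with
      commutes' := fun x => by
        obtain ⟨c, rfl⟩ := residue_surjective x
        show Ideal.Quotient.lift I (entryPoint ρbar) _ (algebraMap k Q (residue 𝒪 c)) = _
        rw [halg]
        exact entryPoint_C ρbar c }
  have hπX : ∀ p : EntryRing 𝒪, π (Ideal.Quotient.mk I p) = entryPoint ρbar p := fun p => rfl
  let W : Submodule k Q := LinearMap.ker π.toLinearMap
  have hmul : ∀ v w : Q, π v = 0 → π w = 0 → v * w = 0 := by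
    intro v w hv hw
    obtain ⟨p, rfl⟩ := Ideal.Quotient.mk_surjective v
    obtain ⟨q, rfl⟩ := Ideal.Quotient.mk_surjective w
    rw [hπX] at hv hw
    rw [← map_mul, Ideal.Quotient.eq_zero_iff_mem]
    refine hE (Ideal.mem_sup_left ?_)
    rw [pow_two]
    exact Ideal.mul_mem_mul (RingHom.mem_ker.mpr hv) (RingHom.mem_ker.mpr hw)
  let pr : Q →ₗ[k] W := LinearMap.codRestrict W
    (LinearMap.id - (Algebra.linearMap k Q).comp π.toLinearMap) fun q => by
      show π (q - algebraMap k Q (π q)) = 0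
      rw [map_sub, AlgHom.commutes]; simp
  have hpr : ∀ q, (pr q : Q) = q - algebraMap k Q (π q) := fun q => rfl
  have hprW : ∀ w : W, pr w = w := fun w => Subtype.ext (by
    have h0 : π (w : Q) = 0 := w.2
    rw [hpr, h0, map_zero, sub_zero])
  have hpr1 : ∀ x : k, pr (algebraMap k Q x) = 0 := fun x => Subtype.ext (by
    rw [hpr, AlgHom.commutes]; simp)
  have hprmul : ∀ u v, pr (u * v) = π u • pr v + π v • pr u := fun u v => Subtype.ext (by
    simp only [Submodule.coe_add, Submodule.coe_smul, hpr, map_mul, Algebra.smul_def]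
    have h := hmul (u - algebraMap k Q (π u)) (v - algebraMap k Q (π v))
      (by rw [map_sub, AlgHom.commutes]; simp) (by rw [map_sub, AlgHom.commutes]; simp)
    linear_combination h)
  have hd : ∀ (l : Module.Dual k W) u v,
      (l.comp pr).toAddMonoidHom (u * v) = π.toRingHom u * (l.comp pr).toAddMonoidHom v +
        π.toRingHom v * (l.comp pr).toAddMonoidHom u := fun l u v => by
    show l (pr (u * v)) = π u * l (pr v) + π v * l (pr u)
    rw [hprmul, map_add, map_smul, map_smul, smul_eq_mul, smul_eq_mul]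
  have hd1 : ∀ l : Module.Dual k W, (l.comp pr).toAddMonoidHom 1 = 0 := fun l => by
    have h : pr 1 = 0 := by rw [← (algebraMap k Q).map_one]; exact hpr1 1
    show l (pr 1) = 0
    rw [h, map_zero]
  let ψ : Module.Dual k W → (Q →ₐ[𝒪] DN) := fun l =>
    { dualHom π.toRingHom (l.comp pr).toAddMonoidHom (hd l) (hd1 l) with
      commutes' := fun c => by
        refine (dualHom_of_zero _ _ _ _ _ ?_).trans ?_
        · show l (pr (algebraMap 𝒪 Q c)) = 0
          rw [← halg c, hpr1, map_zero]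
        · show TrivSqZeroExt.inl (π (algebraMap 𝒪 Q c)) = _
          rw [← halg c, AlgHom.commutes]
          rfl }
  have hψsnd : ∀ l q, (ψ l q).snd = l (pr q) := fun l q =>
    dualHom_snd π.toRingHom (l.comp pr).toAddMonoidHom (hd l) (hd1 l) q
  have hloc' : ∀ l, IsLocalHom (ψ l : Q →+* DN) := fun l => isLocalHom_of_isArtinian _
  let Mψ : Module.Dual k W → MatRep DN := fun l => mapRep (ψ l : Q →+* DN) M
  have hc : ∀ l, IsContRep DN (Mψ l) := fun l => isContRep_mapRep _ (hloc' l) hMc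
  have hlift : ∀ l, IsLift ρbar DN (Mψ l) := fun l σ i j => by
    have h := map_maximalIdeal_pow_le _ (hloc' l) 1
      (Ideal.mem_map_of_mem _ (by rw [pow_one]; exact isLift_of_isTaut hle hMt σ i j))
    rw [pow_one] at h
    rw [map_sub, RingHom.coe_coe, AlgHom.commutes] at h
    exact h
  have hnorm : ∀ l, D.IsNormalised DN (Mψ l) := fun l a => by
    show ψ l (entryAt M (D.s a)) = _
    rw [hMn a, AlgHom.commutes]
  have hprop : ∀ l, 𝒟 (toAdic (Mψ l) (hc l)) ∧
      (toAdic (Mψ l) (hc l)).residual.IsEquiv (ρbar.baseChange (ResidueField DN)) := fun l => by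
    refine ⟨h𝒟.of_isEquiv hDN (baseChange_toAdic _ (hloc' l) M hMc)
      (h𝒟.baseChangeAlong hQ hDN (ψ l) (hloc' l) hMD),
      residual_isEquiv_baseChange ρbar _ _ fun σ i j => ?_⟩
    rw [← residue_liftMat]
    refine sub_eq_zero.mp ((map_sub (residue DN) _ _).symm.trans ((residue_eq_zero_iff _).mpr ?_))
    exact hlift l σ i j
  let F : Module.Dual k W → Quotient st := fun l => Quotient.mk st ⟨_, hprop l⟩
  have hF : Function.Injective F := by
    intro l l' h
    have h' : (toAdic (Mψ l) (hc l)).IsEquiv (toAdic (Mψ l') (hc l')) := Quotient.exact h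
    obtain ⟨g, hg⟩ := (toAdic_isEquiv_iff _ _ _ _).mp h'
    haveI : IsHausdorff (maximalIdeal DN) DN := inferInstance
    have hM : Mψ l = Mψ l' := D.normalised_unique habs hDN.residue_surjective
      (hlift l) (hlift l') (hnorm l) (hnorm l') g hg
    have hgen : (ψ l).comp (Ideal.Quotient.mkₐ 𝒪 I) = (ψ l').comp (Ideal.Quotient.mkₐ 𝒪 I) :=
      MvPolynomial.algHom_ext fun p => by
        obtain ⟨σ, i, j⟩ := p
        show ψ l (Ideal.Quotient.mk I _) = ψ l' (Ideal.Quotient.mk I _)
        rw [← hMt σ i j]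
        exact congrFun (congrFun (DFunLike.congr_fun hM σ) i) j
    refine LinearMap.ext fun w => ?_
    obtain ⟨p, hp⟩ := Ideal.Quotient.mk_surjective (w : Q)
    rw [← hprW w, ← hψsnd, ← hψsnd, ← hp]
    exact congrArg TrivSqZeroExt.snd (DFunLike.congr_fun hgen p)
  haveI : Module.Finite k W := Module.Finite.of_finite
  haveI : Finite (Module.Dual k W) := Finite.of_injective F hF
  have hW : Nat.card W ≤ Nat.card (Quotient st) := by
    rw [Nat.card_congr (Module.finBasis k W).toDualEquiv.toEquiv]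
    exact Nat.card_le_card_of_injective F hF
  have hQW : Function.Injective fun q : Q => (π q, pr q) := by
    intro u v h
    simp only [Prod.mk.injEq] at h
    have h2 := congrArg Subtype.val h.2
    rw [hpr, hpr, h.1] at h2
    exact sub_left_inj.mp h2
  calc Nat.card Q ≤ Nat.card (k × W) := Nat.card_le_card_of_injective _ hQW
    _ = Nat.card k * Nat.card W := Nat.card_prod _ _
    _ ≤ _ := Nat.mul_le_mul_left _ hW

end Fermat.Agent.Deform
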