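/-
The cofinal tower of good ideals, with uniformly bounded generators.
-/
import Mathlib
import Fermat.Agent.Deform.TangentBound

set_option autoImplicit false
set_option linter.style.haveILetI false

noncomputable section

namespace Fermat.Agent.Deform

open IsLocalRing GaloisRep

variable {𝒪 : Type} [CommRing 𝒪] [IsLocalRing 𝒪]
variable {ρbar : ResidualGaloisRep (ResidueField 𝒪)}
variable {𝒟 : ∀ ⦃A : Type⦄ [CommRing A] [IsLocalRing A] [Algebra 𝒪 A], GaloisRepAdic A → Prop}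
variable {D : Slice ρbar}

/-- Among good ideals above `E` with bounded index there is a least one. -/
lemma exists_least_good (h𝒟 : IsDeformationCondition 𝒪 𝒟) {E : Ideal (EntryRing 𝒪)}
    (h0 : ∃ I, IsGood 𝒟 D I ∧ E ≤ I) {B : ℕ}
    (hB : ∀ I, IsGood 𝒟 D I → E ≤ I → Nat.card (EntryRing 𝒪 ⧸ I) ≤ B) :
    ∃ I0, IsGood 𝒟 D I0 ∧ E ≤ I0 ∧ ∀ I, IsGood 𝒟 D I → E ≤ I → I0 ≤ I := by
  classical
  let S : Set ℕ := {c | ∃ I, IsGood 𝒟 D I ∧ E ≤ I ∧ Nat.card (EntryRing 𝒪 ⧸ I) = c}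
  have hne : S.Nonempty := by
    obtain ⟨I, h1, h2⟩ := h0
    exact ⟨_, I, h1, h2, rfl⟩
  have hbdd : BddAbove S := ⟨B, fun c ⟨I, h1, h2, h3⟩ => h3 ▸ hB I h1 h2⟩
  obtain ⟨I0, hI0, hE0, hc0⟩ := Nat.sSup_mem hne hbdd
  refine ⟨I0, hI0, hE0, fun I hI hE => ?_⟩
  have hJ := hI0.inf h𝒟 hI
  haveI := hJ.finite
  haveI := hI0.finite
  have hle : Nat.card (EntryRing 𝒪 ⧸ I0 ⊓ I) ≤ Nat.card (EntryRing 𝒪 ⧸ I0) :=
    (le_csSup hbdd ⟨_, hJ, le_inf hE0 hE, rfl⟩).trans hc0.ge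
  have hs := Ideal.Quotient.factor_surjective (inf_le_left (a := I0) (b := I))
  have hb := (Nat.bijective_iff_surjective_and_card _).mpr
    ⟨hs, le_antisymm hle (Nat.card_le_card_of_surjective _ hs)⟩
  intro p hp
  have h : Ideal.Quotient.mk (I0 ⊓ I) p = 0 :=
    hb.1 (by rw [map_zero, Ideal.Quotient.factor_mk, Ideal.Quotient.eq_zero_iff_mem.mpr hp])
  exact (Ideal.Quotient.eq_zero_iff_mem.mp h).2

lemma sup_pow_mul_le (I : Ideal (EntryRing 𝒪)) (a b : ℕ) :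
    (I ⊔ pointIdeal ρbar ^ a) * (I ⊔ pointIdeal ρbar ^ b) ≤ I ⊔ pointIdeal ρbar ^ (a + b) := by
  rw [Ideal.mul_le]
  intro u hu v hv
  obtain ⟨u1, hu1, u2, hu2, rfl⟩ := Submodule.mem_sup.mp hu
  obtain ⟨v1, hv1, v2, hv2, rfl⟩ := Submodule.mem_sup.mp hv
  rw [show (u1 + u2) * (v1 + v2) = (u1 * (v1 + v2) + u2 * v1) + u2 * v2 by ring, pow_add]
  exact add_mem (Ideal.mem_sup_left (add_mem (Ideal.mul_mem_right _ _ hu1)
    (Ideal.mul_mem_left _ _ hv1))) (Ideal.mem_sup_right (Ideal.mul_mem_mul hu2 hv2))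

/-- Polynomials in elements covering the tangent space fill every finite level. -/
lemma exists_eval_sub_mem {r : ℕ} (x : Fin r → EntryRing 𝒪) {I : Ideal (EntryRing 𝒪)}
    (hI : I ≤ pointIdeal ρbar)
    (hcover : ∀ p ∈ pointIdeal ρbar, ∃ i, p - x i ∈ I ⊔ tangentIdeal ρbar)
    (n : ℕ) (p : EntryRing 𝒪) :
    ∃ q : MvPolynomial (Fin r) 𝒪, p - MvPolynomial.aeval x q ∈ I ⊔ pointIdeal ρbar ^ n := by
  set θ := MvPolynomial.aeval (R := 𝒪) x with hθ
  let K := fun n => I ⊔ pointIdeal ρbar ^ n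
  have hθC : ∀ c, θ (MvPolynomial.C c) = MvPolynomial.C c := fun c => θ.commutes c
  have hK1 : ∀ m, 1 ≤ m → K m ≤ pointIdeal ρbar := fun m hm =>
    sup_le hI (Ideal.pow_le_self (by omega))
  have h0 : ∀ p : EntryRing 𝒪, ∃ q, p - θ q ∈ pointIdeal ρbar := fun p => by
    obtain ⟨c, hc⟩ := residue_surjective (entryPoint ρbar p)
    refine ⟨MvPolynomial.C c, ?_⟩
    rw [hθC, pointIdeal, RingHom.mem_ker, map_sub, entryPoint_C, hc, sub_self]
  have hC : ∀ e ∈ (maximalIdeal 𝒪).map (MvPolynomial.C : 𝒪 →+* EntryRing 𝒪),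
      e ∈ pointIdeal ρbar ∧ ∃ q, e - θ q ∈ K 2 := by
    intro e he
    refine Submodule.span_induction (p := fun e _ => e ∈ pointIdeal ρbar ∧ ∃ q, e - θ q ∈ K 2)
      ?_ ?_ ?_ ?_ he
    · rintro _ ⟨c, hc, rfl⟩
      exact ⟨C_mem_pointIdeal ρbar hc, MvPolynomial.C c, by rw [hθC, sub_self]; exact zero_mem _⟩
    · exact ⟨zero_mem _, 0, by simp⟩
    · rintro u v - - ⟨hu, qu, hqu⟩ ⟨hv, qv, hqv⟩
      refine ⟨add_mem hu hv, qu + qv, ?_⟩
      rw [map_add, add_sub_add_comm]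
      exact add_mem hqu hqv
    · rintro b u - ⟨hu, qu, hqu⟩
      obtain ⟨qb, hqb⟩ := h0 b
      refine ⟨Ideal.mul_mem_left _ _ hu, qb * qu, ?_⟩
      rw [smul_eq_mul, map_mul,
        show b * u - θ qb * θ qu = θ qb * (u - θ qu) + (b - θ qb) * u by ring]
      refine add_mem (Ideal.mul_mem_left _ _ hqu) (Ideal.mem_sup_right ?_)
      rw [pow_two]
      exact Ideal.mul_mem_mul hqb hu
  have h1 : ∀ p ∈ pointIdeal ρbar, ∃ q, p - θ q ∈ K 2 := by
    intro p hp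
    obtain ⟨i, hi⟩ := hcover p hp
    rw [tangentIdeal, ← sup_assoc] at hi
    obtain ⟨u, hu, e, he, hue⟩ := Submodule.mem_sup.mp hi
    obtain ⟨-, q, hq⟩ := hC e he
    refine ⟨MvPolynomial.X i + q, ?_⟩
    rw [map_add, hθ, MvPolynomial.aeval_X, ← hθ,
      show p - (x i + θ q) = u + (e - θ q) by rw [← add_sub_assoc, hue]; ring]
    exact add_mem hu hq
  have hn : ∀ n, ∀ p ∈ pointIdeal ρbar ^ n, ∃ q, p - θ q ∈ K (n + 1) := by
    intro n
    induction n with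
    | zero =>
      intro p _
      obtain ⟨q, hq⟩ := h0 p
      exact ⟨q, Ideal.mem_sup_right (by simpa using hq)⟩
    | succ n ih =>
      intro p hp
      rw [pow_succ] at hp
      refine Submodule.mul_induction_on hp (fun a ha c hc => ?_) ?_
      · obtain ⟨qa, hqa⟩ := ih a ha
        obtain ⟨qc, hqc⟩ := h1 c hc
        refine ⟨qa * qc, ?_⟩
        rw [map_mul, show a * c - θ qa * θ qc = (a - θ qa) * c + θ qa * (c - θ qc) by ring]
        refine add_mem ?_ ?_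
        · refine sup_pow_mul_le I (n + 1) 1 (Ideal.mul_mem_mul hqa (Ideal.mem_sup_right ?_))
          simpa using hc
        · refine sup_pow_mul_le I n 2 (Ideal.mul_mem_mul ?_ hqc)
          have : θ qa = a - (a - θ qa) := by ring
          rw [this]
          exact sub_mem (Ideal.mem_sup_right ha)
            (sup_le_sup_left (Ideal.pow_le_pow_right n.le_succ) I hqa)
      · rintro u v ⟨qu, hu⟩ ⟨qv, hv⟩
        exact ⟨qu + qv, by rw [map_add, add_sub_add_comm]; exact add_mem hu hv⟩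
  induction n generalizing p with
  | zero => exact ⟨0, Ideal.mem_sup_right (by simp)⟩
  | succ n ih =>
    obtain ⟨q, hq⟩ := ih p
    obtain ⟨u, hu, v, hv, huv⟩ := Submodule.mem_sup.mp hq
    obtain ⟨q', hq'⟩ := hn n v hv
    refine ⟨q + q', ?_⟩
    rw [map_add, ← sub_sub, ← huv, add_sub_assoc]
    exact add_mem (Ideal.mem_sup_left hu) hq'

variable (𝒟 D)

/-- A cofinal tower of good ideals with a fixed finite set of generators. -/
structure Tower where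
  r : ℕ
  x : Fin r → EntryRing 𝒪
  x_mem : ∀ i, x i ∈ pointIdeal ρbar
  lev : ℕ → Ideal (EntryRing 𝒪)
  good : ∀ n, IsGood 𝒟 D (lev n)
  pow_le : ∀ n, pointIdeal ρbar ^ (n + 1) ≤ lev n
  lev_le : ∀ n I, IsGood 𝒟 D I → pointIdeal ρbar ^ (n + 1) ≤ I → lev n ≤ I
  surj : ∀ n p, ∃ q : MvPolynomial (Fin r) 𝒪, p - MvPolynomial.aeval x q ∈ lev n

theorem exists_tower [IsNoetherianRing 𝒪] [Finite (ResidueField 𝒪)]
    (habs : ρbar.IsAbsolutelyIrreducible) (h𝒟 : IsDeformationCondition 𝒪 𝒟)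
    (hbar : 𝒟 (GaloisRepAdic.ofResidualGaloisRep ρbar)) (hfin : TangentFinite 𝒪 ρbar 𝒟) :
    Nonempty (Tower 𝒟 D) := by
  have hpt := isGood_pointIdeal D h𝒟 hbar
  obtain ⟨B, hB⟩ := tangent_bound (D := D) habs h𝒟 hfin
  obtain ⟨J, hJ, hJE, hJmin⟩ := exists_least_good h𝒟 ⟨_, hpt, tangentIdeal_le⟩ hB
  haveI := hJ.finite
  let W := {q : EntryRing 𝒪 ⧸ J // ∃ p ∈ pointIdeal ρbar, Ideal.Quotient.mk J p = q}
  obtain ⟨r, ⟨e⟩⟩ := Finite.exists_equiv_fin W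
  choose x hxm hx using fun i => (e.symm i).2
  have hcover : ∀ I, IsGood 𝒟 D I →
      ∀ p ∈ pointIdeal ρbar, ∃ i, p - x i ∈ I ⊔ tangentIdeal ρbar := by
    intro I hI p hp
    refine ⟨e ⟨_, p, hp, rfl⟩, ?_⟩
    refine hJmin _ (hI.mono h𝒟 le_sup_left (sup_le hI.le tangentIdeal_le)) le_sup_right ?_
    rw [← Ideal.Quotient.eq, hx, Equiv.symm_apply_apply]
  have hsurj : ∀ n I, IsGood 𝒟 D I → pointIdeal ρbar ^ n ≤ I →
      ∀ p, ∃ q : MvPolynomial (Fin r) 𝒪, p - MvPolynomial.aeval x q ∈ I := fun n I hI hn p => by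
    obtain ⟨q, hq⟩ := exists_eval_sub_mem x hI.le (hcover I hI) n p
    exact ⟨q, by rwa [sup_eq_left.mpr hn] at hq⟩
  let 𝔮 : Ideal (MvPolynomial (Fin r) 𝒪) :=
    (pointIdeal ρbar).comap (MvPolynomial.aeval (R := 𝒪) x)
  haveI : Finite (MvPolynomial (Fin r) 𝒪 ⧸ 𝔮) := by
    haveI := hpt.finite
    exact Finite.of_injective _ (Ideal.quotientMap_injective
      (I := pointIdeal ρbar) (f := (MvPolynomial.aeval (R := 𝒪) x).toRingHom))
  have hbound : ∀ n I, IsGood 𝒟 D I → pointIdeal ρbar ^ n ≤ I →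
      Nat.card (EntryRing 𝒪 ⧸ I) ≤ Nat.card (MvPolynomial (Fin r) 𝒪 ⧸ 𝔮 ^ n) := by
    intro n I hI hn
    haveI := Ideal.finite_quotient_pow (I := 𝔮) (IsNoetherian.noetherian _) n
    refine Nat.card_le_card_of_surjective
      (Ideal.quotientMap I (MvPolynomial.aeval (R := 𝒪) x).toRingHom ?_) fun y => ?_
    · exact (Ideal.le_comap_pow _ n).trans (Ideal.comap_mono hn)
    · obtain ⟨p, rfl⟩ := Ideal.Quotient.mk_surjective y
      obtain ⟨q, hq⟩ := hsurj n I hI hn p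
      refine ⟨Ideal.Quotient.mk _ q, ?_⟩
      rw [Ideal.quotientMap_mk]
      exact (Ideal.Quotient.eq.mpr hq).symm
  have hlev : ∀ n : ℕ, ∃ I0, IsGood 𝒟 D I0 ∧ pointIdeal ρbar ^ (n + 1) ≤ I0 ∧
      ∀ I, IsGood 𝒟 D I → pointIdeal ρbar ^ (n + 1) ≤ I → I0 ≤ I := fun n =>
    exists_least_good h𝒟 ⟨_, hpt, Ideal.pow_le_self n.succ_ne_zero⟩ (hbound (n + 1))
  choose lev hgood hpow hmin using hlev
  exact ⟨⟨r, x, hxm, lev, hgood, hpow, hmin, fun n => hsurj (n + 1) _ (hgood n) (hpow n)⟩⟩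

end Fermat.Agent.Deform
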