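/-
The universal deformation ring as a quotient of a power series ring.
-/
import Mathlib
import Fermat.Prelude.Thm_IsLocalRing_isAdicComplete_of_module_finite
import Fermat.Agent.Deform.PowerSeriesLocal
import Fermat.Agent.Deform.Tower

set_option autoImplicit false
set_option linter.style.haveILetI false

noncomputable section

namespace Fermat.Agent.Deform

open IsLocalRing GaloisRep

lemma isLocalHom_of_surjective_of_local {A B : Type} [CommRing A] [IsLocalRing A] [CommRing B]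
    [Nontrivial B] (f : A →+* B) (hf : Function.Surjective f) : IsLocalHom f := by
  refine ⟨fun a ha => ?_⟩
  by_contra h
  obtain ⟨u, hu⟩ := hf ↑ha.unit⁻¹
  have h1 : a * u ∈ maximalIdeal A := Ideal.mul_mem_right _ _ h
  have h2 := (IsLocalRing.isUnit_one_sub_self_of_mem_nonunits _ h1).map f
  rw [map_sub, map_one, map_mul, hu, IsUnit.mul_val_inv, sub_self] at h2
  exact not_isUnit_zero h2

variable {𝒪 : Type} [CommRing 𝒪] [IsLocalRing 𝒪]
variable {ρbar : ResidualGaloisRep (ResidueField 𝒪)}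
variable {𝒟 : ∀ ⦃A : Type⦄ [CommRing A] [IsLocalRing A] [Algebra 𝒪 A], GaloisRepAdic A → Prop}
variable {D : Slice ρbar}
variable (T : Tower 𝒟 D)

namespace Tower

/-- The `n`-th finite level. -/
abbrev Level (n : ℕ) : Type := EntryRing 𝒪 ⧸ T.lev n

instance instIsLocalRingLevel (n : ℕ) : IsLocalRing (T.Level n) :=
  isLocalRing_quot (T.good n).le (T.pow_le n)

instance instFiniteLevel (n : ℕ) : Finite (T.Level n) := (T.good n).finite

lemma lev_antitone : Antitone T.lev :=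
  antitone_nat_of_succ_le fun n => T.lev_le (n + 1) _ (T.good n)
    ((Ideal.pow_le_pow_right (n + 1).le_succ).trans (T.pow_le n))

lemma maximalIdeal_level_pow (n : ℕ) : maximalIdeal (T.Level n) ^ (n + 1) = ⊥ := by
  rw [maximalIdeal_quot (T.good n).le, ← Ideal.map_pow, Ideal.map_eq_bot_iff_le_ker, Ideal.mk_ker]
  exact T.pow_le n

/-- The ambient power series ring. -/
abbrev Ambient : Type := MvPowerSeries (Fin T.r) 𝒪

lemma vars_pow_le (n : ℕ) :
    MvPolynomial.idealOfVars (Fin T.r) 𝒪 ^ (n + 1) ≤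
      RingHom.ker ((Ideal.Quotient.mkₐ 𝒪 (T.lev n)).comp (MvPolynomial.aeval T.x)) := by
  have h : MvPolynomial.idealOfVars (Fin T.r) 𝒪 ≤
      (pointIdeal ρbar).comap (MvPolynomial.aeval (R := 𝒪) T.x) := by
    rw [MvPolynomial.idealOfVars, Ideal.span_le]
    rintro _ ⟨i, rfl⟩
    simpa using T.x_mem i
  intro p hp
  have h1 := (Ideal.le_comap_pow _ (n + 1)) (Ideal.pow_right_mono h (n + 1) hp)
  exact Ideal.Quotient.eq_zero_iff_mem.mpr (T.pow_le n h1)

/-- Evaluation of power series at the `n`-th level. -/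
def ev (n : ℕ) : T.Ambient →ₐ[𝒪] T.Level n :=
  (Ideal.Quotient.liftₐ (MvPolynomial.idealOfVars (Fin T.r) 𝒪 ^ (n + 1))
      ((Ideal.Quotient.mkₐ 𝒪 (T.lev n)).comp (MvPolynomial.aeval T.x))
      fun _ hp => T.vars_pow_le n hp).comp
    ((MvPowerSeries.truncTotalAlgHom (Fin T.r) 𝒪 (n + 1)).restrictScalars 𝒪)

lemma ev_coe (n : ℕ) (p : MvPolynomial (Fin T.r) 𝒪) :
    T.ev n (p : T.Ambient) = Ideal.Quotient.mk (T.lev n) (MvPolynomial.aeval T.x p) := by
  have h : (p : T.Ambient) = algebraMap (MvPolynomial (Fin T.r) 𝒪) T.Ambient p := rfl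
  show Ideal.Quotient.liftₐ (MvPolynomial.idealOfVars (Fin T.r) 𝒪 ^ (n + 1))
      ((Ideal.Quotient.mkₐ 𝒪 (T.lev n)).comp (MvPolynomial.aeval T.x))
      (fun _ hp => T.vars_pow_le n hp)
    ((MvPowerSeries.truncTotalAlgHom (Fin T.r) 𝒪 (n + 1)) (p : T.Ambient)) = _
  rw [h, (MvPowerSeries.truncTotalAlgHom (Fin T.r) 𝒪 (n + 1)).commutes]
  rfl

lemma ev_surjective (n : ℕ) : Function.Surjective (T.ev n) := fun y => by
  obtain ⟨p, rfl⟩ := Ideal.Quotient.mk_surjective y
  obtain ⟨q, hq⟩ := T.surj n p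
  exact ⟨(q : T.Ambient), (T.ev_coe n q).trans (Ideal.Quotient.eq.mpr hq).symm⟩

instance instIsLocalHomEv (n : ℕ) : IsLocalHom (T.ev n : T.Ambient →+* T.Level n) :=
  isLocalHom_of_surjective_of_local _ (T.ev_surjective n)

lemma map_maximalIdeal_ev (n : ℕ) :
    (maximalIdeal T.Ambient).map (T.ev n : T.Ambient →+* T.Level n) = maximalIdeal (T.Level n) := by
  refine le_antisymm (Ideal.map_le_iff_le_comap.mpr fun s hs =>
    map_nonunit (T.ev n : T.Ambient →+* T.Level n) s hs) fun y hy => ?_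
  obtain ⟨s, rfl⟩ := T.ev_surjective n y
  exact Ideal.mem_map_of_mem (T.ev n : T.Ambient →+* T.Level n) fun hu => hy (hu.map (T.ev n))

lemma ev_eq_zero {n : ℕ} {s : T.Ambient} (hs : s ∈ maximalIdeal T.Ambient ^ (n + 1)) :
    T.ev n s = 0 := by
  have h := Ideal.mem_map_of_mem (T.ev n : T.Ambient →+* T.Level n) hs
  rw [Ideal.map_pow, map_maximalIdeal_ev, maximalIdeal_level_pow, Ideal.mem_bot] at h
  exact h

lemma factor_ev {m n : ℕ} (h : m ≤ n) (s : T.Ambient) :
    Ideal.Quotient.factor (T.lev_antitone h) (T.ev n s) = T.ev m s := by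
  let t : MvPolynomial (Fin T.r) 𝒪 := MvPowerSeries.truncTotal (n + 1) s
  have hd : s - (t : T.Ambient) ∈ maximalIdeal T.Ambient ^ (n + 1) :=
    mem_pow_of_coeff_eq_zero fun d hd => by
      rw [map_sub, MvPolynomial.coeff_coe, MvPowerSeries.coeff_truncTotal _ hd, sub_self]
  have h1 := T.ev_eq_zero hd
  have h2 := T.ev_eq_zero (Ideal.pow_le_pow_right (show m + 1 ≤ n + 1 by omega) hd)
  rw [map_sub, sub_eq_zero] at h1 h2
  rw [h1, h2, T.ev_coe, T.ev_coe, Ideal.Quotient.factor_mk]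

lemma exists_ker_decomp (h𝒟 : IsDeformationCondition 𝒪 𝒟) {n : ℕ} {s : T.Ambient} (hs : T.ev n s = 0) :
    ∃ t ∈ maximalIdeal T.Ambient ^ (n + 1), T.ev (n + 1) (s - t) = 0 := by
  obtain ⟨p, hp⟩ := Ideal.Quotient.mk_surjective (T.ev (n + 1) s)
  have hpn : p ∈ T.lev n := by
    rw [← Ideal.Quotient.eq_zero_iff_mem,
      ← Ideal.Quotient.factor_mk (T.lev_antitone n.le_succ), hp, T.factor_ev n.le_succ, hs]
  have hmem : p ∈ T.lev (n + 1) ⊔ pointIdeal ρbar ^ (n + 1) := by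
    refine T.lev_le n _ ?_ le_sup_right hpn
    exact (T.good (n + 1)).mono h𝒟 le_sup_left
      (sup_le (T.good (n + 1)).le (Ideal.pow_le_self n.succ_ne_zero))
  obtain ⟨u, hu, v, hv, rfl⟩ := Submodule.mem_sup.mp hmem
  have h1 : T.ev (n + 1) s ∈ maximalIdeal (T.Level (n + 1)) ^ (n + 1) := by
    rw [← hp, map_add, Ideal.Quotient.eq_zero_iff_mem.mpr hu, zero_add,
      maximalIdeal_quot (T.good (n + 1)).le, ← Ideal.map_pow]
    exact Ideal.mem_map_of_mem _ hv
  rw [← map_maximalIdeal_ev, ← Ideal.map_pow] at h1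
  obtain ⟨t, ht, hts⟩ := (Ideal.mem_map_iff_of_surjective
    (T.ev (n + 1) : T.Ambient →+* T.Level (n + 1)) (T.ev_surjective _)).mp h1
  exact ⟨t, ht, by rw [map_sub]; exact sub_eq_zero.mpr hts.symm⟩

section Lift

variable [IsAdicComplete (maximalIdeal 𝒪) 𝒪]

/-- Compatible families in the tower come from power series. -/
theorem exists_lift (h𝒟 : IsDeformationCondition 𝒪 𝒟) (q : ∀ n, T.Level n)
    (hq : ∀ m n (h : m ≤ n), Ideal.Quotient.factor (T.lev_antitone h) (q n) = q m)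
    (n₀ : ℕ) (s₀ : T.Ambient) (h₀ : T.ev n₀ s₀ = q n₀) :
    ∃ s, s - s₀ ∈ maximalIdeal T.Ambient ^ (n₀ + 1) ∧ ∀ n, T.ev n s = q n := by
  have hStep : ∀ (j : ℕ) (t : {t : T.Ambient // T.ev (n₀ + j) t = q (n₀ + j)}),
      ∃ t' : {t : T.Ambient // T.ev (n₀ + (j + 1)) t = q (n₀ + (j + 1))},
        t'.1 - t.1 ∈ maximalIdeal T.Ambient ^ (n₀ + j + 1) := by
    rintro j ⟨t, ht⟩
    obtain ⟨u, hu⟩ := T.ev_surjective (n₀ + j + 1) (q (n₀ + j + 1))
    have h1 : T.ev (n₀ + j) (u - t) = 0 := by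
      rw [map_sub, ← T.factor_ev (Nat.le_succ (n₀ + j)) u, hu, hq _ _ (Nat.le_succ _), ht, sub_self]
    obtain ⟨b, hb, hb'⟩ := T.exists_ker_decomp h𝒟 h1
    refine ⟨⟨t + b, ?_⟩, by simpa using hb⟩
    show T.ev (n₀ + j + 1) (t + b) = _
    rw [show t + b = u - (u - t - b) by ring, map_sub, hb', sub_zero, hu]
    rfl
  choose next hnext using hStep
  let seq : ∀ j, {t : T.Ambient // T.ev (n₀ + j) t = q (n₀ + j)} :=
    fun j => Nat.rec ⟨s₀, h₀⟩ next j
  have hc : ∀ i j, i ≤ j → (seq j).1 - (seq i).1 ∈ maximalIdeal T.Ambient ^ (n₀ + i + 1) := by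
    intro i j hij
    induction j, hij using Nat.le_induction with
    | base => simp
    | succ j hij ih =>
      rw [← sub_add_sub_cancel _ (seq j).1]
      exact add_mem (Ideal.pow_le_pow_right (by omega) (hnext j (seq j))) ih
  haveI := isAdicComplete_mvPowerSeries (σ := Fin T.r) (𝒪 := 𝒪)
  obtain ⟨L, hL⟩ := IsPrecomplete.prec
    (inferInstance : IsPrecomplete (maximalIdeal T.Ambient) T.Ambient)
    (f := fun j => (seq j).1) fun {i j} hij => by
      rw [SModEq.sub_mem, mem_smul_top_iff', ← neg_mem_iff, neg_sub]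
      exact Ideal.pow_le_pow_right (by omega) (hc i j hij)
  have hLj : ∀ j, L - (seq j).1 ∈ maximalIdeal T.Ambient ^ (n₀ + j + 1) := by
    intro j
    have h1 := hL (n₀ + j + 1)
    rw [SModEq.sub_mem, mem_smul_top_iff'] at h1
    rw [show L - (seq j).1 = -((seq (n₀ + j + 1)).1 - L) + ((seq (n₀ + j + 1)).1 - (seq j).1) by
      ring]
    exact add_mem (neg_mem h1) (hc j (n₀ + j + 1) (by omega))
  refine ⟨L, hLj 0, fun n => ?_⟩
  have h1 := T.ev_eq_zero (hLj n)
  rw [map_sub, sub_eq_zero, (seq n).2] at h1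
  have hn : n ≤ n₀ + n := Nat.le_add_left _ _
  rw [← T.factor_ev hn, h1, hq n (n₀ + n) hn]

end Lift

/-- Kernel of the map to the limit. -/
def kerAll : Ideal T.Ambient := ⨅ n, RingHom.ker (T.ev n)

/-- The universal deformation ring. -/
abbrev Ring : Type := T.Ambient ⧸ T.kerAll

instance instNontrivialRing : Nontrivial T.Ring :=
  Ideal.Quotient.nontrivial_iff.mpr (ne_top_of_le_ne_top (RingHom.ker_ne_top (T.ev 0))
    (iInf_le _ 0))

instance instIsLocalRingRing : IsLocalRing T.Ring :=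
  IsLocalRing.of_surjective' (Ideal.Quotient.mk _) Ideal.Quotient.mk_surjective

instance instIsNoetherianRingRing [IsNoetherianRing 𝒪] : IsNoetherianRing T.Ring :=
  Ideal.Quotient.isNoetherianRing _

instance instIsAdicCompleteRing [IsNoetherianRing 𝒪] [IsAdicComplete (maximalIdeal 𝒪) 𝒪] :
    IsAdicComplete (maximalIdeal T.Ring) T.Ring :=
  haveI := isAdicComplete_mvPowerSeries (σ := Fin T.r) (𝒪 := 𝒪)
  haveI : IsLocalHom (algebraMap T.Ambient T.Ring) :=
    isLocalHom_of_surjective_of_local _ Ideal.Quotient.mk_surjective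
  IsLocalRing.isAdicComplete_of_module_finite (𝒪 := T.Ambient)

/-- The projections to the levels. -/
def proj (n : ℕ) : T.Ring →ₐ[𝒪] T.Level n :=
  Ideal.Quotient.liftₐ T.kerAll (T.ev n) fun _ hs => (iInf_le _ n : T.kerAll ≤ _) hs

lemma proj_mk (n : ℕ) (s : T.Ambient) : T.proj n (Ideal.Quotient.mk _ s) = T.ev n s := rfl

lemma proj_surjective (n : ℕ) : Function.Surjective (T.proj n) := fun y =>
  let ⟨s, hs⟩ := T.ev_surjective n y
  ⟨Ideal.Quotient.mk _ s, hs⟩

lemma proj_injective {x y : T.Ring} (h : ∀ n, T.proj n x = T.proj n y) : x = y := by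
  obtain ⟨s, rfl⟩ := Ideal.Quotient.mk_surjective x
  obtain ⟨t, rfl⟩ := Ideal.Quotient.mk_surjective y
  refine Ideal.Quotient.eq.mpr (Submodule.mem_iInf _ |>.mpr fun n => ?_)
  rw [RingHom.mem_ker, map_sub]
  exact sub_eq_zero.mpr (h n)

lemma factor_proj {m n : ℕ} (h : m ≤ n) (x : T.Ring) :
    Ideal.Quotient.factor (T.lev_antitone h) (T.proj n x) = T.proj m x := by
  obtain ⟨s, rfl⟩ := Ideal.Quotient.mk_surjective x
  exact T.factor_ev h s

instance instIsLocalHomAlgebraMap : IsLocalHom (algebraMap 𝒪 T.Ring) :=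
  ⟨fun c hc => by
    have h := hc.map (T.proj 0)
    rw [AlgHom.commutes] at h
    haveI := (isTest_quot (I := T.lev 0) (T.good 0).le).isLocalHom
    exact (isUnit_map_iff (algebraMap 𝒪 (T.Level 0)) c).mp h⟩

lemma residue_surjective_ring :
    Function.Surjective (residue T.Ring ∘ algebraMap 𝒪 T.Ring) := fun x => by
  obtain ⟨y, rfl⟩ := residue_surjective x
  obtain ⟨s, rfl⟩ := Ideal.Quotient.mk_surjective y
  refine ⟨MvPowerSeries.constantCoeff s, ?_⟩
  rw [Function.comp_apply, ← sub_eq_zero, ← map_sub, residue_eq_zero_iff]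
  show Ideal.Quotient.mk T.kerAll (MvPowerSeries.C (MvPowerSeries.constantCoeff s)) -
    Ideal.Quotient.mk T.kerAll s ∈ _
  rw [← map_sub]
  haveI := isLocalHom_of_surjective_of_local (Ideal.Quotient.mk T.kerAll)
    Ideal.Quotient.mk_surjective
  refine map_nonunit (Ideal.Quotient.mk T.kerAll) _ ((mem_maximalIdeal_iff _).mpr ?_)
  simp

lemma proj_eq_zero_iff [IsAdicComplete (maximalIdeal 𝒪) 𝒪] (h𝒟 : IsDeformationCondition 𝒪 𝒟)
    (n : ℕ) (x : T.Ring) :
    T.proj n x = 0 ↔ x ∈ maximalIdeal T.Ring ^ (n + 1) := by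
  have hm : maximalIdeal T.Ring = (maximalIdeal T.Ambient).map (Ideal.Quotient.mk T.kerAll) :=
    (IsLocalRing.eq_maximalIdeal (Ideal.IsMaximal.map_of_surjective_of_ker_le
      Ideal.Quotient.mk_surjective (by
        rw [Ideal.mk_ker]
        exact le_maximalIdeal (ne_top_of_le_ne_top (RingHom.ker_ne_top (T.ev 0)) (iInf_le _ 0))))).symm
  rw [hm, ← Ideal.map_pow, Ideal.mem_map_iff_of_surjective _ Ideal.Quotient.mk_surjective]
  constructor
  · obtain ⟨s, rfl⟩ := Ideal.Quotient.mk_surjective x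
    intro hs
    obtain ⟨t, ht, htq⟩ := T.exists_lift h𝒟 (fun N => T.ev N s) (fun a b h => T.factor_ev h s) n 0
      (by rw [map_zero]; exact hs.symm)
    rw [sub_zero] at ht
    exact ⟨t, ht, T.proj_injective fun N => htq N⟩
  · rintro ⟨t, ht, rfl⟩
    exact T.ev_eq_zero ht

end Tower

end Fermat.Agent.Deform
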