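/-
The universal deformation and its universal property.
-/
import Mathlib
import Fermat.Prelude.Def_GaloisRep_DeformationRingData
import Fermat.Agent.Deform.UniversalRing

set_option autoImplicit false
set_option linter.style.haveILetI false

noncomputable section

namespace Fermat.Agent.Deform

open IsLocalRing GaloisRep

variable {𝒪 : Type} [CommRing 𝒪] [IsLocalRing 𝒪]
variable {ρbar : ResidualGaloisRep (ResidueField 𝒪)}
variable {𝒟 : ∀ ⦃A : Type⦄ [CommRing A] [IsLocalRing A] [Algebra 𝒪 A], GaloisRepAdic A → Prop}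
variable {D : Slice ρbar} (T : Tower 𝒟 D)

namespace Tower

/-- The tautological deformation at the `n`-th level. -/
def levelRep (n : ℕ) : MatRep (T.Level n) := (T.good n).rep.choose_spec.choose

lemma levelRep_cont (n : ℕ) : IsContRep (T.Level n) (T.levelRep n) :=
  (T.good n).rep.choose_spec.choose_spec.choose

lemma levelRep_taut (n : ℕ) : IsTaut (T.lev n) (T.levelRep n) :=
  (T.good n).rep.choose_spec.choose_spec.choose_spec.1

lemma levelRep_norm (n : ℕ) : D.IsNormalised (T.Level n) (T.levelRep n) :=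
  (T.good n).rep.choose_spec.choose_spec.choose_spec.2.1

lemma levelRep_type (n : ℕ) : 𝒟 (toAdic (T.levelRep n) (T.levelRep_cont n)) :=
  (T.good n).rep.choose_spec.choose_spec.choose_spec.2.2

lemma mem_maximalIdeal_of_proj {n : ℕ} {x : T.Ring}
    (h : T.proj n x ∈ maximalIdeal (T.Level n)) : x ∈ maximalIdeal T.Ring :=
  fun hu => h (hu.map (T.proj n))

variable [IsAdicComplete (maximalIdeal 𝒪) 𝒪] (h𝒟 : IsDeformationCondition 𝒪 𝒟)

include h𝒟 in
lemma exists_entry (σ : GQ) (i j : Fin 2) :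
    ∃ x : T.Ring, ∀ n, T.proj n x = Ideal.Quotient.mk (T.lev n) (MvPolynomial.X (σ, i, j)) := by
  obtain ⟨s₀, h₀⟩ := T.ev_surjective 0 (Ideal.Quotient.mk _ (MvPolynomial.X (σ, i, j)))
  obtain ⟨s, -, hs⟩ := T.exists_lift h𝒟
    (fun n => Ideal.Quotient.mk (T.lev n) (MvPolynomial.X (σ, i, j)))
    (fun m n h => Ideal.Quotient.factor_mk _ _) 0 s₀ h₀
  exact ⟨Ideal.Quotient.mk _ s, hs⟩

/-- Matrices of the universal deformation, as a function. -/
def univMat (σ : GQ) : Matrix (Fin 2) (Fin 2) T.Ring :=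
  Matrix.of fun i j => (T.exists_entry h𝒟 σ i j).choose

lemma proj_univMat (n : ℕ) (σ : GQ) :
    (T.proj n : T.Ring →+* T.Level n).mapMatrix (T.univMat h𝒟 σ) = T.levelRep n σ :=
  Matrix.ext fun i j =>
    ((T.exists_entry h𝒟 σ i j).choose_spec n).trans (T.levelRep_taut n σ i j).symm

omit [IsAdicComplete (maximalIdeal 𝒪) 𝒪] in
lemma univMat_ext {X Y : Matrix (Fin 2) (Fin 2) T.Ring}
    (h : ∀ n, (T.proj n : T.Ring →+* T.Level n).mapMatrix X =
      (T.proj n : T.Ring →+* T.Level n).mapMatrix Y) : X = Y :=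
  Matrix.ext fun i j => T.proj_injective fun n => congrFun (congrFun (h n) i) j

/-- The universal deformation. -/
def univRep : MatRep T.Ring where
  toFun := T.univMat h𝒟
  map_one' := T.univMat_ext fun n => by rw [proj_univMat, map_one, map_one]
  map_mul' σ τ := T.univMat_ext fun n => by
    rw [proj_univMat, map_mul, map_mul, proj_univMat, proj_univMat]

lemma mapRep_proj_univRep (n : ℕ) :
    mapRep (T.proj n : T.Ring →+* T.Level n) (T.univRep h𝒟) = T.levelRep n :=
  MonoidHom.ext fun σ => T.proj_univMat h𝒟 n σ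

lemma proj_univRep (n : ℕ) (σ : GQ) (i j : Fin 2) :
    T.proj n (T.univRep h𝒟 σ i j) = Ideal.Quotient.mk _ (MvPolynomial.X (σ, i, j)) :=
  (T.exists_entry h𝒟 σ i j).choose_spec n

lemma univRep_cont : IsContRep T.Ring (T.univRep h𝒟) := by
  intro n
  haveI := (isTest_quot (I := T.lev n) (T.good n).le).isArtinian
  obtain ⟨L, hL, h⟩ := exists_level (T.levelRep_cont n)
  refine ⟨L, hL, fun σ hσ i j => ?_⟩
  refine Ideal.pow_le_pow_right n.le_succ ((T.proj_eq_zero_iff h𝒟 n _).mp ?_)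
  have h1 : (T.proj n : T.Ring →+* T.Level n).mapMatrix (T.univRep h𝒟 σ - 1) = 0 := by
    rw [map_sub, map_one]
    show (T.proj n : T.Ring →+* T.Level n).mapMatrix (T.univMat h𝒟 σ) - 1 = 0
    rw [proj_univMat, h σ hσ, sub_self]
  exact congrFun (congrFun h1 i) j

lemma univRep_lift : IsLift ρbar T.Ring (T.univRep h𝒟) := fun σ i j => by
  refine T.mem_maximalIdeal_of_proj (n := 0) ?_
  rw [map_sub, AlgHom.commutes, proj_univRep, ← T.levelRep_taut 0 σ i j]
  exact isLift_of_isTaut (T.good 0).le (T.levelRep_taut 0) σ i j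

lemma univRep_norm : D.IsNormalised T.Ring (T.univRep h𝒟) := fun a => T.proj_injective fun n => by
  rw [AlgHom.commutes, ← T.levelRep_norm n a]
  exact (T.proj_univRep h𝒟 n _ _ _).trans (T.levelRep_taut n _ _ _).symm

lemma proj_aeval (n : ℕ) (p : EntryRing 𝒪) :
    T.proj n (entryEval (T.univRep h𝒟) p) = Ideal.Quotient.mk (T.lev n) p := by
  suffices (T.proj n).comp (entryEval (T.univRep h𝒟)) = Ideal.Quotient.mkₐ 𝒪 (T.lev n) from
    AlgHom.congr_fun this p
  refine MvPolynomial.algHom_ext fun q => ?_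
  obtain ⟨σ, i, j⟩ := q
  rw [AlgHom.comp_apply, entryEval_X]
  exact T.proj_univRep h𝒟 n σ i j

/-- Maps killing a power of the maximal ideal are determined by the universal entries. -/
lemma hom_ext {B : Type} [CommRing B] [Algebra 𝒪 B] (n : ℕ) (f g : T.Ring →ₐ[𝒪] B)
    (hf : ∀ x ∈ maximalIdeal T.Ring ^ (n + 1), f x = 0)
    (hg : ∀ x ∈ maximalIdeal T.Ring ^ (n + 1), g x = 0)
    (h : ∀ σ i j, f (T.univRep h𝒟 σ i j) = g (T.univRep h𝒟 σ i j)) : f = g := by
  refine AlgHom.ext fun x => ?_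
  obtain ⟨p, hp⟩ := Ideal.Quotient.mk_surjective (T.proj n x)
  have hk : x - entryEval (T.univRep h𝒟) p ∈ maximalIdeal T.Ring ^ (n + 1) :=
    (T.proj_eq_zero_iff h𝒟 n _).mp (by rw [map_sub, proj_aeval, hp, sub_self])
  have hfg : f.comp (entryEval (T.univRep h𝒟)) = g.comp (entryEval (T.univRep h𝒟)) :=
    MvPolynomial.algHom_ext fun q => by
      obtain ⟨σ, i, j⟩ := q
      simp only [AlgHom.comp_apply, entryEval_X]
      exact h σ i j
  have h1 := hf _ hk
  have h2 := hg _ hk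
  rw [map_sub, sub_eq_zero] at h1 h2
  rw [h1, h2]
  exact AlgHom.congr_fun hfg p

lemma univRep_type [IsNoetherianRing 𝒪] : 𝒟 (toAdic (T.univRep h𝒟) (T.univRep_cont h𝒟)) := by
  refine (h𝒟.iff_forall_surjective inferInstance T.residue_surjective_ring _).mpr ?_
  intro B _ _ _ hB q hq hqs
  haveI := hB.isArtinian
  obtain ⟨N, hN⟩ := (isArtinianRing_iff_isNilpotent_maximalIdeal B).mp hB.isArtinian
  have hk : ∀ x, T.proj N x = 0 → q x = 0 := fun x hx => by
    have h1 := map_maximalIdeal_pow_le (q : T.Ring →+* B) hq (N + 1)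
      (Ideal.mem_map_of_mem _ ((T.proj_eq_zero_iff h𝒟 N x).mp hx))
    rwa [pow_succ, hN, zero_mul, Ideal.zero_eq_bot, Ideal.mem_bot] at h1
  let ψ : T.Level N →ₐ[𝒪] B :=
    (Ideal.Quotient.liftₐ (RingHom.ker (T.proj N)) q fun x hx => hk x hx).comp
      (Ideal.quotientKerAlgEquivOfSurjective (T.proj_surjective N)).symm.toAlgHom
  have hψ : ∀ x, ψ (T.proj N x) = q x := fun x => by
    show Ideal.Quotient.liftₐ (RingHom.ker (T.proj N)) q (fun a ha => hk a ha)
      ((Ideal.quotientKerAlgEquivOfSurjective (T.proj_surjective N)).symm (T.proj N x)) = q x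
    have hy : (Ideal.quotientKerAlgEquivOfSurjective (T.proj_surjective N)).symm (T.proj N x) =
        Ideal.Quotient.mk (RingHom.ker (T.proj N)) x := by
      rw [AlgEquiv.symm_apply_eq]
      rfl
    rw [hy]
    rfl
  have hT := isTest_quot (I := T.lev N) (T.good N).le
  haveI := hT.isArtinian
  have hψl : IsLocalHom (ψ : T.Level N →+* B) := isLocalHom_of_isArtinian _
  refine h𝒟.of_isEquiv hB ?_ (h𝒟.baseChangeAlong hT hB ψ hψl (T.levelRep_type N))
  refine isEquiv_trans' (baseChange_toAdic _ hψl _ _) (isEquiv_symm' ?_)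
  refine isEquiv_trans' (baseChange_toAdic _ hq _ _) ?_
  rw [toAdic_congr _ (isContRep_mapRep _ hψl (T.levelRep_cont N)) (matRep_ext fun σ i j => ?_)]
  · exact ⟨GaloisRepAdic.Equiv.refl _⟩
  · rw [mapRep_apply, mapRep_apply, T.levelRep_taut N σ i j, ← T.proj_univRep h𝒟 N σ i j]
    exact (hψ _).symm

variable [IsNoetherianRing 𝒪] [Finite (ResidueField 𝒪)]
variable {A : Type} [CommRing A] [IsLocalRing A] [IsNoetherianRing A]
  [IsAdicComplete (maximalIdeal A) A] [Algebra 𝒪 A] [IsLocalHom (algebraMap 𝒪 A)]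

omit [IsNoetherianRing 𝒪] in
/-- A normalised deformation over a complete local algebra comes from the universal ring. -/
theorem exists_hom (hres : Function.Surjective (residue A ∘ algebraMap 𝒪 A)) (M : MatRep A)
    (hMc : IsContRep A M) (hM : IsLift ρbar A M) (hN : D.IsNormalised A M)
    (hMD : 𝒟 (toAdic M hMc)) :
    ∃ φ : T.Ring →ₐ[𝒪] A, IsLocalHom (φ : T.Ring →+* A) ∧
      mapRep (φ : T.Ring →+* A) (T.univRep h𝒟) = M := by
  have hlev : ∀ n : ℕ, ∃ f : T.Ring →ₐ[𝒪] A ⧸ maximalIdeal A ^ (n + 1),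
      (∀ x ∈ maximalIdeal T.Ring ^ (n + 1), f x = 0) ∧
      ∀ σ i j, f (T.univRep h𝒟 σ i j) = Ideal.Quotient.mk _ (M σ i j) := by
    intro n
    set I := maximalIdeal A ^ (n + 1) with hIdef
    have hIm : I ≤ maximalIdeal A := Ideal.pow_le_self n.succ_ne_zero
    haveI : Nontrivial (A ⧸ I) :=
      Ideal.Quotient.nontrivial_iff.mpr (ne_top_of_le_ne_top (maximalIdeal.isMaximal A).ne_top hIm)
    haveI : IsLocalRing (A ⧸ I) :=
      IsLocalRing.of_surjective' (Ideal.Quotient.mk I) Ideal.Quotient.mk_surjective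
    haveI : Finite (A ⧸ maximalIdeal A) := by
      refine Finite.of_surjective (ResidueField.map (algebraMap 𝒪 A) : _ → ResidueField A) fun x => ?_
      obtain ⟨c, hc⟩ := hres x
      exact ⟨residue 𝒪 c, (ResidueField.map_residue _ _).trans hc⟩
    haveI : Finite (A ⧸ I) :=
      Ideal.finite_quotient_pow (IsNoetherian.noetherian (maximalIdeal A)) (n + 1)
    let mkA : A →ₐ[𝒪] A ⧸ I := Ideal.Quotient.mkₐ 𝒪 I
    have hmkl : IsLocalHom (mkA : A →+* A ⧸ I) :=
      isLocalHom_of_surjective_of_local _ Ideal.Quotient.mk_surjective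
    have hQ : IsArtinianTestAlgebra 𝒪 (A ⧸ I) := by
      refine ⟨⟨fun c hc => ?_⟩, fun x => ?_, inferInstance⟩
      · have h1 : IsUnit ((mkA : A →+* A ⧸ I) (algebraMap 𝒪 A c)) := hc
        haveI := hmkl
        exact (isUnit_map_iff (algebraMap 𝒪 A) c).mp ((isUnit_map_iff (mkA : A →+* A ⧸ I) _).mp h1)
      · obtain ⟨y, rfl⟩ := residue_surjective x
        obtain ⟨a, rfl⟩ := Ideal.Quotient.mk_surjective y
        obtain ⟨c, hc⟩ := hres (residue A a)
        refine ⟨c, ?_⟩
        haveI := hmkl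
        exact ((ResidueField.map_residue (mkA : A →+* A ⧸ I) _).symm.trans
          (congrArg (ResidueField.map (mkA : A →+* A ⧸ I)) hc)).trans
          (ResidueField.map_residue _ _)
    haveI := hQ.isLocalHom
    let Mn : MatRep (A ⧸ I) := mapRep (mkA : A →+* A ⧸ I) M
    have hMnc : IsContRep _ Mn := isContRep_mapRep _ hmkl hMc
    have hMnl : IsLift ρbar (A ⧸ I) Mn := fun σ i j => by
      rw [← residue_eq_zero_iff]
      show residue (A ⧸ I) ((mkA : A →+* A ⧸ I) (M σ i j) -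
        (mkA : A →+* A ⧸ I) (algebraMap 𝒪 A (liftMat ρbar σ i j))) = 0
      rw [← map_sub, residue_eq_zero_iff]
      haveI := hmkl
      exact map_nonunit (mkA : A →+* A ⧸ I) _ (hM σ i j)
    have hMnn : D.IsNormalised (A ⧸ I) Mn := fun a => by
      show mkA (entryAt M (D.s a)) = _
      rw [hN a, AlgHom.commutes]
    have hMnD : 𝒟 (toAdic Mn hMnc) :=
      h𝒟.of_isEquiv hQ (baseChange_toAdic _ hmkl M hMc)
        ((h𝒟.iff_forall_surjective ‹_› hres _).mp hMD hQ mkA hmkl Ideal.Quotient.mk_surjective)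
    have hker := isGood_ker D h𝒟 hQ (hMc := hMnc) hMnl hMnn hMnD
    have hpow : pointIdeal ρbar ^ (n + 1) ≤ RingHom.ker (entryEval (𝒪 := 𝒪) Mn) := by
      intro p hp
      have h2 : (pointIdeal ρbar).map (entryEval (𝒪 := 𝒪) Mn) ≤ maximalIdeal (A ⧸ I) :=
        Ideal.map_le_iff_le_comap.mpr fun q hq => entryEval_mem_maximalIdeal hMnl hq
      have h1 : entryEval Mn p ∈ maximalIdeal (A ⧸ I) ^ (n + 1) := by
        refine Ideal.pow_right_mono h2 (n + 1) ?_
        rw [← Ideal.map_pow]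
        exact Ideal.mem_map_of_mem _ hp
      have h3 : maximalIdeal (A ⧸ I) ≤ (maximalIdeal A).map (Ideal.Quotient.mk I) := by
        intro y hy
        obtain ⟨a, rfl⟩ := Ideal.Quotient.mk_surjective y
        exact Ideal.mem_map_of_mem _ fun hu => hy (hu.map (Ideal.Quotient.mk I))
      have h4 := Ideal.pow_right_mono h3 (n + 1) h1
      rw [← Ideal.map_pow, ← hIdef, Ideal.map_quotient_self, Ideal.mem_bot] at h4
      exact h4
    refine ⟨(Ideal.Quotient.liftₐ (T.lev n) (entryEval Mn)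
      fun p hp => T.lev_le n _ hker hpow hp).comp (T.proj n), fun x hx => ?_, fun σ i j => ?_⟩
    · rw [AlgHom.comp_apply, (T.proj_eq_zero_iff h𝒟 n x).mpr hx, map_zero]
    · rw [AlgHom.comp_apply, T.proj_univRep h𝒟 n σ i j]
      exact entryEval_X Mn σ i j
  choose f hf0 hfX using hlev
  let F : (n : ℕ) → T.Ring →ₐ[𝒪] A ⧸ maximalIdeal A ^ n := fun n =>
    (Ideal.Quotient.factorₐ 𝒪 (Ideal.pow_le_pow_right n.le_succ)).comp (f n)
  have hF : ∀ n σ i j, F n (T.univRep h𝒟 σ i j) = Ideal.Quotient.mk _ (M σ i j) := fun n σ i j => by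
    show Ideal.Quotient.factorₐ 𝒪 (Ideal.pow_le_pow_right n.le_succ) (f n _) = _
    rw [hfX]
    rfl
  have hF0 : ∀ n x, x ∈ maximalIdeal T.Ring ^ (n + 1) → F n x = 0 := fun n x hx => by
    show Ideal.Quotient.factorₐ 𝒪 (Ideal.pow_le_pow_right n.le_succ) (f n x) = 0
    rw [hf0 n x hx, map_zero]
  have hcompat : ∀ {m n : ℕ} (hle : m ≤ n),
      (Ideal.Quotient.factorₐ 𝒪 (Ideal.pow_le_pow_right (I := maximalIdeal A) hle)).comp (F n)
        = F m := by
    intro m n hle
    refine T.hom_ext h𝒟 n _ _ (fun x hx => ?_)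
      (fun x hx => hF0 m x (Ideal.pow_le_pow_right (by omega) hx)) fun σ i j => ?_
    · rw [AlgHom.comp_apply, hF0 n x hx, map_zero]
    · rw [AlgHom.comp_apply, hF, hF]
      rfl
  let φ : T.Ring →ₐ[𝒪] A := IsAdicComplete.liftAlgHom (maximalIdeal A) F hcompat
  have hφ : ∀ n x, Ideal.Quotient.mk (maximalIdeal A ^ n) (φ x) = F n x := fun n x =>
    IsAdicComplete.mk_liftAlgHom _ F hcompat n x
  refine ⟨φ, ⟨fun x hx => ?_⟩, matRep_ext fun σ i j => ?_⟩
  · by_contra hxu
    have hx' : x ∈ maximalIdeal T.Ring := hxu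
    have h1 : φ x ∈ maximalIdeal A := by
      have h0 : f 0 x = 0 := hf0 0 x (by simpa using hx')
      have he : (Ideal.Quotient.factorₐ 𝒪
          (Ideal.pow_le_pow_right (I := maximalIdeal A) (Nat.le_refl 1))).comp (F 1) = f 0 := by
        refine T.hom_ext h𝒟 1 _ _ (fun y hy => ?_)
          (fun y hy => hf0 0 y (Ideal.pow_le_pow_right (by omega) hy)) fun a b c => ?_
        · rw [AlgHom.comp_apply, hF0 1 y hy, map_zero]
        · rw [AlgHom.comp_apply, hF, hfX]
          rfl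
      have h2 := AlgHom.congr_fun he x
      rw [AlgHom.comp_apply, h0, ← hφ 1 x] at h2
      have h3 : φ x ∈ maximalIdeal A ^ 1 := Ideal.Quotient.eq_zero_iff_mem.mp h2
      simpa using h3
    exact h1 hx
  · rw [mapRep_apply, ← sub_eq_zero]
    refine IsHausdorff.haus (inferInstance : IsHausdorff (maximalIdeal A) A) _ fun n => ?_
    rw [SModEq.zero, mem_smul_top_iff', ← Ideal.Quotient.eq_zero_iff_mem, map_sub]
    exact sub_eq_zero.mpr ((hφ n _).trans (hF n σ i j))

omit [IsNoetherianRing 𝒪] [Finite (ResidueField 𝒪)] [IsNoetherianRing A]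
  [IsLocalHom (algebraMap 𝒪 A)] in
/-- The universal entries determine local homomorphisms to complete local rings. -/
theorem hom_unique {φ φ' : T.Ring →ₐ[𝒪] A} (hφ : IsLocalHom (φ : T.Ring →+* A))
    (hφ' : IsLocalHom (φ' : T.Ring →+* A))
    (h : ∀ σ i j, φ (T.univRep h𝒟 σ i j) = φ' (T.univRep h𝒟 σ i j)) : φ = φ' := by
  refine IsAdicComplete.algHom_ext (maximalIdeal A) fun n => ?_
  refine T.hom_ext h𝒟 n _ _ (fun x hx => ?_) (fun x hx => ?_) fun σ i j => ?_
  · exact Ideal.Quotient.eq_zero_iff_mem.mpr (map_maximalIdeal_pow_le _ hφ n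
      (Ideal.mem_map_of_mem _ (Ideal.pow_le_pow_right n.le_succ hx)))
  · exact Ideal.Quotient.eq_zero_iff_mem.mpr (map_maximalIdeal_pow_le _ hφ' n
      (Ideal.mem_map_of_mem _ (Ideal.pow_le_pow_right n.le_succ hx)))
  · rw [AlgHom.comp_apply, AlgHom.comp_apply, h]

end Tower

variable [IsAdicComplete (maximalIdeal 𝒪) 𝒪] [IsNoetherianRing 𝒪] [Finite (ResidueField 𝒪)]

omit [IsAdicComplete (maximalIdeal 𝒪) 𝒪] [IsNoetherianRing 𝒪] [Finite (ResidueField 𝒪)] in
lemma residual_isEquiv_of_isLift {A : Type} [CommRing A] [IsLocalRing A] [Algebra 𝒪 A]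
    [IsLocalHom (algebraMap 𝒪 A)] {M : MatRep A} (hMc : IsContRep A M) (hM : IsLift ρbar A M) :
    (toAdic M hMc).residual.IsEquiv
      (ρbar.baseChangeAlong (ResidueField.map (algebraMap 𝒪 A))) := by
  letI : Algebra (ResidueField 𝒪) (ResidueField A) :=
    (ResidueField.map (algebraMap 𝒪 A)).toAlgebra
  exact residual_isEquiv_baseChange ρbar M hMc fun σ i j =>
    congrFun (congrFun (residue_of_isLift hM σ) i) j

omit [IsAdicComplete (maximalIdeal 𝒪) 𝒪] [IsNoetherianRing 𝒪] [Finite (ResidueField 𝒪)] in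
/-- A deformation of `ρbar` has a normalised matrix model. -/
theorem exists_normalised_model {A : Type} [CommRing A] [IsLocalRing A] [Algebra 𝒪 A]
    [IsLocalHom (algebraMap 𝒪 A)] [IsAdicComplete (maximalIdeal A) A] (D : Slice ρbar)
    (ρA : GaloisRepAdic A) (he : ρA.residual.IsEquiv
      (ρbar.baseChangeAlong (ResidueField.map (algebraMap 𝒪 A)))) :
    ∃ (M : MatRep A) (hMc : IsContRep A M), IsLift ρbar A M ∧ D.IsNormalised A M ∧
      ρA.IsEquiv (toAdic M hMc) := by
  letI : Algebra (ResidueField 𝒪) (ResidueField A) :=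
    (ResidueField.map (algebraMap 𝒪 A)).toAlgebra
  obtain ⟨M, hMc, hMe, hMr⟩ := exists_lift_of_residual_isEquiv ρbar ρA he
  have hM : IsLift ρbar A M := fun σ i j => by
    rw [← residue_eq_zero_iff, map_sub, hMr, ← residue_liftMat, sub_eq_zero]
    exact ResidueField.map_residue _ _
  obtain ⟨g, hgl, hgn⟩ := D.exists_normalised hM
  exact ⟨_, isContRep_conjRep g hMc, hgl, hgn,
    isEquiv_trans' hMe (isEquiv_toAdic_conjRep g M hMc)⟩

end Fermat.Agent.Deform
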